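import Fermat.Agent.LTG.Gal.HData

/-!
# Elements separating the eigenvalues from those of Eisenstein series

For every finite set `S` of places of `L` there is `α ∈ Lˣ` close to `1` on `S` such that an odd
number of the places off `S` where it has odd valuation have a Frobenius of order four; so
`∏_{w ∉ S} z_w ^ ord_w α ≠ 1` for every choice of Satake parameters `z` of the eigenvalues.
-/

set_option autoImplicit false

noncomputable section

open NumberField Fermat.CFT Fermat.LT Fermat.LT.Theta Fermat.LT.Theta.Gal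
open scoped Classical

namespace Fermat.LTG

local notation "G₃" => GL (Fin 2) (ZMod 3)
local notation "M₃" => Matrix (Fin 2) (Fin 2) (ZMod 3)

namespace GTower

open GL2Tower

variable {K L N : Type} [Field K] [NumberField K] [Field L] [NumberField L] [Algebra K L]
  [Field N] [NumberField N] [Algebra L N] [Algebra K N] [IsScalarTower K L N]
  (T : GTower K L N)

/-- The same tower with the isomorphism conjugated. -/
def conjTower (Y : G₃) : GTower K L N where
  galois := T.galois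
  e := T.e.trans (MulAut.conj Y)
  fixL g := by
    rw [T.fixL, inQ8_iff, inQ8_iff, MulEquiv.trans_apply, MulAut.conj_apply, Units.val_mul,
      Units.val_mul]
    refine ⟨fun h => isQ_conj h Y, fun h => ?_⟩
    have h' := isQ_conj h Y⁻¹
    rwa [inv_inv, Matrix.mul_assoc, Matrix.mul_assoc, Units.inv_mul, mul_one, ← Matrix.mul_assoc,
      Units.inv_mul, one_mul] at h'
  fixK g := by
    rw [T.fixK, MulEquiv.trans_apply, MulAut.conj_apply, map_mul, map_mul, map_inv]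
    rw [mul_inv_cancel_comm]
  unramified := T.unramified

/-- The conjugated tower has the conjugated embedding. -/
lemma eL_conjTower (Y : G₃) (g : N ≃ₐ[L] N) : (T.conjTower Y).eL g = Y * T.eL g * Y⁻¹ := rfl

/-- The conjugated tower has the same ramified places. -/
lemma ramN_conjTower (Y : G₃) : (T.conjTower Y).ramN = T.ramN :=
  Finset.ext fun _ => (T.conjTower Y).mem_ramN.trans T.mem_ramN.symm

/-- A conjugation moving `X₂` to `X₁`. -/
def Y₂ : G₃ := (conjugate isI_X₂ isI_X₁).choose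

/-- `Y₂` conjugates `X₂` to `X₁`. -/
lemma Y₂_spec : Y₂ * X₂ * Y₂⁻¹ = X₁ := by
  rw [mul_inv_eq_iff_eq_mul]
  exact Units.ext
    (by rw [Units.val_mul, Units.val_mul]; exact (conjugate isI_X₂ isI_X₁).choose_spec)

/-- The tower with the isomorphism conjugated by `Y₂`. -/
abbrev T₂ : GTower K L N := T.conjTower Y₂

/-- The elements of the second cyclic subgroup. -/
lemma mem_C₂_iff {g : N ≃ₐ[L] N} : g ∈ T.T₂.C ↔ (T.eL g : M₃) = 1 ∨ (T.eL g : M₃) = -1 ∨
    (T.eL g : M₃) = X₂ ∨ (T.eL g : M₃) = -(X₂ : M₃) := by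
  have hX : ((Y₂ : G₃) : M₃) * (X₂ : M₃) * ((Y₂⁻¹ : G₃) : M₃) = X₁ := by
    rw [← Units.val_mul, ← Units.val_mul, Y₂_spec]
  have key : ∀ A B : M₃, ((Y₂ : G₃) : M₃) * A * ((Y₂⁻¹ : G₃) : M₃) = B ↔
      A = ((Y₂⁻¹ : G₃) : M₃) * B * (Y₂ : M₃) := fun A B => by
    constructor
    · rintro rfl; simp [Matrix.mul_assoc]
    · intro e; rw [e]; simp [Matrix.mul_assoc]
  rw [mem_C_iff, eL_conjTower, Units.val_mul, Units.val_mul, key, key, key, key]
  rw [← hX]
  simp [Matrix.mul_assoc]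

/-- `y₂` lies in the second cyclic subgroup. -/
lemma y₂_mem_C₂ : T.y₂ ∈ T.T₂.C :=
  T.mem_C₂_iff.mpr (Or.inr (Or.inr (Or.inl (by rw [eL_y₂]))))

/-- `y₁ y₂` lies in neither cyclic subgroup. -/
lemma y₁_mul_y₂_not_mem : T.y₁ * T.y₂ ∉ T.C ∧ T.y₁ * T.y₂ ∉ T.T₂.C := by
  rw [mem_C_iff, mem_C₂_iff, map_mul, Units.val_mul, eL_y₁, eL_y₂]
  simp only [coe_X₁, coe_X₂, mat_one, mat_neg, mat_mul, mat_inj]
  decide

/-- The image of an element has order four unless it lies in both cyclic subgroups. -/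
lemma isI_or_mem (g : N ≃ₐ[L] N) : IsI (T.eL g : M₃) ↔ ¬ (g ∈ T.C ∧ g ∈ T.T₂.C) := by
  constructor
  · rintro h ⟨h1, h2⟩
    rcases T.mem_C_iff.mp h1 with e | e | e | e
    · exact absurd (e ▸ h.2) (by rw [Matrix.trace_one]; decide)
    · exact absurd (e ▸ h.2) (by rw [Matrix.trace_neg, Matrix.trace_one]; decide)
    all_goals
      rcases T.mem_C₂_iff.mp h2 with f | f | f | f <;> rw [e] at f <;>
        revert f <;> simp only [coe_X₁, coe_X₂, mat_one, mat_neg, mat_inj] <;> decide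
  · intro h
    rcases T.eL_isQ g with e | e | e
    · exact absurd ⟨T.mem_C_iff.mpr (Or.inl e), T.mem_C₂_iff.mpr (Or.inl e)⟩ h
    · exact absurd ⟨T.mem_C_iff.mpr (Or.inr (Or.inl e)), T.mem_C₂_iff.mpr (Or.inr (Or.inl e))⟩ h
    · exact e

/-- The Frobenius at a place of `L`, at a chosen place of `N` over it. -/
def fr (w : Pl L) : N ≃ₐ[L] N :=
  haveI := T.isGalois_L
  frobEl L (plOver N w)

/-- The conjugated tower has the same Frobenius. -/
lemma fr_conjTower (Y : G₃) (w : Pl L) : (T.conjTower Y).fr w = T.fr w := rfl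

/-- The chosen Frobenius is a power map. -/
lemma congr_fr (w : Pl L) : Congr (T.fr w) (plOver N w) (resCard w) := by
  have := T.isGalois_L
  have h := congr_frobEl (K := L) (plOver N w)
  rwa [plUnder_plOver] at h

include T in
/-- Frobenius elements over one place are conjugate. -/
lemma exists_conj_fr {w : Pl L} (hw : w ∉ T.ramN) {W : Pl N} (hW : plUnder L W = w) {g : N ≃ₐ[L] N}
    (hg : Congr g W (resCard w)) : ∃ τ : N ≃ₐ[L] N, g = τ * T.fr w * τ⁻¹ := by
  have := T.isGalois_L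
  obtain ⟨τ, hτ⟩ := exists_smul_eq_of_plUnder_eq (K := L)
    ((plUnder_plOver (N := N) w).trans hW.symm)
  have h := (T.congr_fr w).conj τ
  rw [hτ] at h
  exact ⟨τ, Congr.eq_of_congr (T.plRamIdx_eq_one (by rwa [hW])) hg h⟩

/-- Membership of Frobenius in a normal subgroup, by an element generating the same group. -/
lemma fr_mem_iff {w : Pl L} (hw : w ∉ T.ramN) {W : Pl N} (hW : plUnder L W = w) {g : N ≃ₐ[L] N}
    (hg : Congr g W (resCard w)) {y : N ≃ₐ[L] N}
    (hgy : Subgroup.zpowers (T.eL g) = Subgroup.zpowers (T.eL y))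
    (H : Subgroup (N ≃ₐ[L] N)) [H.Normal] : T.fr w ∈ H ↔ y ∈ H := by
  obtain ⟨τ, hτ⟩ := T.exists_conj_fr hw hW hg
  have hz : Subgroup.zpowers g = Subgroup.zpowers y := by
    apply Subgroup.map_injective T.eL_injective
    rw [MonoidHom.map_zpowers, MonoidHom.map_zpowers]; exact hgy
  have hgH : g ∈ H ↔ y ∈ H := by
    rw [← Subgroup.zpowers_le, hz, Subgroup.zpowers_le]
  rw [← hgH, hτ]
  exact ⟨fun h => ‹H.Normal›.conj_mem _ h τ, fun h => by
    have h' := ‹H.Normal›.conj_mem _ h τ⁻¹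
    rwa [inv_inv, ← mul_assoc, ← mul_assoc, inv_mul_cancel, one_mul, inv_mul_cancel_right] at h'⟩

include T in
/-- An unramified place is unramified in the intermediate field. -/
lemma not_mem_ramPl {w : Pl L} (hw : w ∉ T.ramN) : w ∉ ramPl (K := L) T.Mf := by
  rintro ⟨P, rfl, hP⟩
  exact hP (T.unram_Mf (T.unram hw))

/-- Non-split means that Frobenius is outside the subgroup. -/
lemma isNonsplit_iff_fr {w : Pl L} (hw : w ∉ T.ramN) : IsNonsplit T.σ w ↔ T.fr w ∉ T.C := by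
  have := T.isGalois_L
  have hu : plUnder L (plUnder T.Mf (plOver N w)) = w := by
    rw [plUnder_plUnder', plUnder_plOver]
  rw [isNonsplit_iff_congr T.finrank_Mf T.σ_ne_one hu (T.unram_Mf (T.unram (by rwa [hu])))
    ((T.congr_fr w).restrictNormal (N := T.Mf)), Ne, T.restrict_eq_one_iff_mem]

variable [IsTotallyComplex L]

/-- Non-norm places: Frobenius outside the subgroup and odd order. -/
lemma mem_nonNorm_iff {w : Pl L} (hw : w ∉ T.ramN) (x : Lˣ) :
    w ∈ nonNorm T.σ x ↔ T.fr w ∉ T.C ∧ Odd (CFT.ord w (x : L)) := by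
  change IsNonsplit T.σ w ∧ _ ↔ _
  constructor
  · rintro ⟨h1, h2⟩
    exact ⟨(T.isNonsplit_iff_fr hw).mp h1, Int.not_even_iff_odd.mp fun he =>
      h2 ((mem_lnorms_iff_even T.finrank_Mf T.σ_ne_one h1 (T.not_mem_ramPl hw) x).mpr he)⟩
  · rintro ⟨h1, h2⟩
    have h := (T.isNonsplit_iff_fr hw).mpr h1
    exact ⟨h, fun hm => Int.not_even_iff_odd.mpr h2
      ((mem_lnorms_iff_even T.finrank_Mf T.σ_ne_one h (T.not_mem_ramPl hw) x).mp hm)⟩

/-- **The parity element.** Some `α` close to one on a finite set has odd valuation at an odd number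
of places off it whose Frobenius has order four. -/
theorem exists_odd_order_four
    (hpl : ∀ X : G₃, IsQ (X : M₃) → ∀ S : Finset (Pl L), ∃ (W : Pl N) (g : N ≃ₐ[L] N),
      plUnder L W ∉ S ∧ plUnder L W ∉ T.ramN ∧ Congr g W (resCard (plUnder L W)) ∧
      Subgroup.zpowers (T.eL g) = Subgroup.zpowers X)
    (S : Finset (Pl L)) (n : ℕ) :
    ∃ α : Lˣ, (∀ w ∈ S ∪ T.ramN, CloseOne w ((n + 1 : ℕ) : ℤ) (α : L)) ∧
      ∃ O : Finset (Pl L), Odd O.card ∧ ∀ w : Pl L, w ∈ O ↔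
        (w ∉ S ∪ T.ramN ∧ Odd (CFT.ord w (α : L)) ∧ IsI (T.eL (T.fr w) : M₃)) := by
  have := T.isGalois_L
  set S' := S ∪ T.ramN with hS'
  have hout : ∀ {w : Pl L}, w ∉ S' → w ∉ T.ramN := fun h h' => h (Finset.mem_union_right _ h')
  obtain ⟨W, g, hwS, hwr, hg, hgX⟩ := hpl X₂ (Or.inr (Or.inr isI_X₂)) S'
  obtain ⟨W', g', hwS', hwr', hg', hgX'⟩ := hpl (X₁ * X₂) (by
    rw [← T.eL_y₁, ← T.eL_y₂, ← map_mul]; exact T.eL_isQ _) S'
  rw [← T.eL_y₂] at hgX
  rw [← T.eL_y₁, ← T.eL_y₂, ← map_mul] at hgX'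
  set w := plUnder L W
  set w' := plUnder L W'
  have hw1 : T.fr w ∉ T.C := fun h => T.y₂_not_mem ((T.fr_mem_iff hwr rfl hg hgX T.C).mp h)
  have hw2 : T.fr w ∈ T.T₂.C := (T.fr_mem_iff hwr rfl hg hgX T.T₂.C).mpr T.y₂_mem_C₂
  have hw1' : T.fr w' ∉ T.C :=
    fun h => T.y₁_mul_y₂_not_mem.1 ((T.fr_mem_iff hwr' rfl hg' hgX' T.C).mp h)
  have hw2' : T.fr w' ∉ T.T₂.C :=
    fun h => T.y₁_mul_y₂_not_mem.2 ((T.fr_mem_iff hwr' rfl hg' hgX' T.T₂.C).mp h)
  have hne : w ≠ w' := fun e => hw2' (e ▸ hw2)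
  obtain ⟨m, hm⟩ : ∃ m : ℕ, ∀ v ∈ S', localLevel 2 (-1 : L) v ≤ m :=
    ⟨_, fun v hv => Finset.le_sup (f := fun v : Pl L => localLevel 2 (-1 : L) v) hv⟩
  have hcy : IsCyclic (T.Mf ≃ₐ[L] T.Mf) := isCyclic_of_prime_card (p := 2)
    (by rw [IsGalois.card_aut_eq_finrank, T.finrank_Mf])
  -- a pair of non-norms at `w`, `w'`, close to one at `S'`
  obtain ⟨x, hx, hxc, -⟩ := exists_pair (N := T.Mf) T.finrank_Mf T.σ_ne_one hcy (a := 1)
    (by rw [IsGalois.card_aut_eq_finrank, T.finrank_Mf, pow_one]) (quadSgn (K := L) T.finrank_Mf)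
    (T := S') (fun u hu => T.unram_Mf (T.unram (hout hu))) (n + m + 1) hwS hwS'
    ((T.isNonsplit_iff_fr hwr).mpr hw1) ((T.isNonsplit_iff_fr hwr').mpr hw1')
  have hxc' : ∀ v ∈ S', CloseOne v ((n + 1 : ℕ) : ℤ) (x : L) := fun v hv =>
    closeOne_mono (hxc v hv) (by push_cast; omega)
  have hxS : ∀ (T' : GTower K L N), ∀ v ∈ S', v ∉ nonNorm T'.σ x := fun T' v hv h =>
    h.2 (mem_lnorms_of_closeOne (closeOne_mono (hxc v hv) (by have := hm v hv; push_cast; omega)))
  have hr2 : ∀ {v : Pl L}, v ∉ S' → v ∉ T.T₂.ramN := fun h => by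
    rw [ramN_conjTower]; exact hout h
  have heven : Even (nonNorm T.T₂.σ x).ncard :=
    even_ncard_of_norm_ram T.T₂.finrank_Mf T.T₂.σ_ne_one fun v hv =>
      hxS T.T₂ v (by by_contra h; exact T.T₂.not_mem_ramPl (hr2 h) hv)
  set F₂ := (nonNorm_finite T.T₂.finrank_Mf T.T₂.σ_ne_one x).toFinset
  rw [Set.ncard_eq_toFinset_card _ (nonNorm_finite T.T₂.finrank_Mf T.T₂.σ_ne_one x)] at heven
  have hwF : w ∉ F₂ := fun h => by
    rw [Set.Finite.mem_toFinset, T.T₂.mem_nonNorm_iff (hr2 hwS), fr_conjTower] at h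
    exact h.1 hw2
  have hwodd : Odd (CFT.ord w (x : L)) := ((T.mem_nonNorm_iff hwr x).mp (by
    rw [hx, Set.mem_symmDiff]; exact Or.inl ⟨rfl, hne⟩)).2
  -- the places in question: `w` and the evenly many non-norm places of the conjugate tower
  refine ⟨x, hxc', insert w F₂, ?_, fun v => ?_⟩
  · rw [Finset.card_insert_of_notMem hwF]
    exact Even.add_one heven
  rw [Finset.mem_insert, Set.Finite.mem_toFinset]
  constructor
  · rintro (rfl | hv)
    · exact ⟨hwS, hwodd, (T.isI_or_mem _).mpr fun h => hw1 h.1⟩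
    · have hvS : v ∉ S' := fun h => hxS T.T₂ v h hv
      rw [T.T₂.mem_nonNorm_iff (hr2 hvS), fr_conjTower] at hv
      exact ⟨hvS, hv.2, (T.isI_or_mem _).mpr fun h => hv.1 h.2⟩
  · rintro ⟨hvS, hodd, hI⟩
    by_cases h2 : T.fr v ∈ T.T₂.C
    · left
      have h1 : T.fr v ∉ T.C := fun h1 => (T.isI_or_mem _).mp hI ⟨h1, h2⟩
      have hv : v ∈ nonNorm T.σ x := (T.mem_nonNorm_iff (hout hvS) x).mpr ⟨h1, hodd⟩
      rw [hx, Set.mem_symmDiff] at hv
      rcases hv with ⟨h, -⟩ | ⟨h, -⟩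
      · exact h
      · exact absurd (show v = w' from h) fun e => hw2' (e ▸ h2)
    · exact Or.inr ((T.T₂.mem_nonNorm_iff (hr2 hvS) x).mpr ⟨by rwa [fr_conjTower], hodd⟩)

omit [IsTotallyComplex L] in
/-- The eigenvalue is `0` or `±2 √q` according to the Frobenius being of order four. -/
lemma lam_eq_zero_or (w : Pl L) (hw : w ∉ T.ramN) :
    (IsI (T.eL (T.fr w) : M₃) ∧ T.lam w = 0) ∨
    (¬ IsI (T.eL (T.fr w) : M₃) ∧
      (T.lam w = 2 * Real.sqrt (resCard w) ∨ T.lam w = -2 * Real.sqrt (resCard w))) := by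
  have := T.isGalois_L
  rw [T.lam_eq hw (plUnder_plOver w) (T.congr_fr w)]
  rcases T.eL_isQ (T.fr w) with e | e | e
  · refine Or.inr ⟨fun h => absurd (e ▸ h.2) (by rw [Matrix.trace_one]; decide), Or.inl ?_⟩
    rw [show T.eL (T.fr w) = 1 from Units.ext e, liftTr_one]; push_cast; ring
  · refine Or.inr ⟨fun h => absurd (e ▸ h.2) (by rw [Matrix.trace_neg, Matrix.trace_one]; decide),
      Or.inr ?_⟩
    rw [liftTr_neg e]; push_cast; ring
  · exact Or.inl ⟨e, by rw [liftTr_isI e]; simp⟩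

/-- The square of a Satake parameter for the values `0` and `±2`. -/
lemma sq_of_satake {z : ℂˣ} {c : ℝ} (h : (z : ℂ) + ((z⁻¹ : ℂˣ) : ℂ) = c) :
    (c = 0 → z ^ 2 = -1) ∧ ((c = 2 ∨ c = -2) → z ^ 2 = 1) := by
  have h1 : (z : ℂ) ^ 2 + 1 = (c : ℂ) * z := by
    rw [← h, Units.val_inv_eq_inv_val]; field_simp [z.ne_zero]
  refine ⟨fun h0 => Units.ext ?_, fun h2 => Units.ext ?_⟩
  · rw [h0] at h1
    rw [Units.val_pow_eq_pow_val, Units.val_neg, Units.val_one]
    push_cast at h1; linear_combination h1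
  · rw [Units.val_pow_eq_pow_val, Units.val_one]
    rcases h2 with h2 | h2 <;> rw [h2] at h1 <;> push_cast at h1
    · have hsq : ((z : ℂ) - 1) ^ 2 = 0 := by linear_combination h1
      rw [sub_eq_zero.mp (pow_eq_zero_iff two_ne_zero |>.mp hsq), one_pow]
    · have hsq : ((z : ℂ) + 1) ^ 2 = 0 := by linear_combination h1
      rw [eq_neg_of_add_eq_zero_left (pow_eq_zero_iff two_ne_zero |>.mp hsq), neg_one_sq]

/-- **The element separating the eigenvalues from those of Eisenstein series.** -/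
theorem exists_killElement
    (hpl : ∀ X : G₃, IsQ (X : M₃) → ∀ S : Finset (Pl L), ∃ (W : Pl N) (g : N ≃ₐ[L] N),
      plUnder L W ∉ S ∧ plUnder L W ∉ T.ramN ∧ Congr g W (resCard (plUnder L W)) ∧
      Subgroup.zpowers (T.eL g) = Subgroup.zpowers X)
    (S : Finset (Pl L)) (n : ℕ) :
    ∃ α : Lˣ, (∀ w ∈ S, CloseOne w ((n + 1 : ℕ) : ℤ) (α : L)) ∧
      ∀ z : Pl L → ℂˣ, (∀ w ∉ S, (z w : ℂ) + ((z w)⁻¹ : ℂˣ) =
        ((T.lam w / Real.sqrt (resCard w) : ℝ) : ℂ)) →
      ∏ᶠ w : Pl L, (if w ∈ S then 1 else z w ^ CFT.ord w (α : L)) ≠ 1 := by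
  obtain ⟨α, hα, O, hO, hmem⟩ := T.exists_odd_order_four hpl S n
  refine ⟨α, fun w hw => hα w (Finset.mem_union_left _ hw), fun z hz hprod => ?_⟩
  have hfin : (Function.mulSupport fun w : Pl L => if w ∈ S then (1 : ℂˣ) else
      z w ^ CFT.ord w (α : L)).Finite :=
    (CFT.finite_ord_ne_zero (α : L)).subset fun w hw h => hw (by simp [h])
  have h2 := congrArg (powMonoidHom 2 : ℂˣ →* ℂˣ) hprod
  rw [(powMonoidHom 2 : ℂˣ →* ℂˣ).map_finprod hfin, map_one] at h2
  have hterm : ∀ w : Pl L, (powMonoidHom 2 : ℂˣ →* ℂˣ)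
      (if w ∈ S then (1 : ℂˣ) else z w ^ CFT.ord w (α : L)) = if w ∈ O then -1 else 1 := by
    intro w
    by_cases hwS : w ∈ S
    · rw [if_pos hwS, map_one, if_neg fun h => ((hmem w).mp h).1 (Finset.mem_union_left _ hwS)]
    rw [if_neg hwS, powMonoidHom_apply, ← zpow_natCast, ← zpow_mul, mul_comm,
      zpow_mul, zpow_natCast]
    by_cases hwr : w ∈ T.ramN
    · rw [(hα w (Finset.mem_union_right _ hwr)).ord_eq_zero (by push_cast; omega), zpow_zero,
        if_neg fun h => ((hmem w).mp h).1 (Finset.mem_union_right _ hwr)]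
    have hw' : w ∉ S ∪ T.ramN := by simp [hwS, hwr]
    have hq : Real.sqrt (resCard w) ≠ 0 :=
      Real.sqrt_ne_zero'.mpr (by exact_mod_cast resCard_pos w)
    obtain ⟨hs0, hs2⟩ := sq_of_satake (hz w hwS)
    rcases T.lam_eq_zero_or w hwr with ⟨hI, hl⟩ | ⟨hI, hl⟩
    · rw [hs0 (by rw [hl, zero_div])]
      by_cases hodd : Odd (CFT.ord w (α : L))
      · rw [if_pos ((hmem w).mpr ⟨hw', hodd, hI⟩), hodd.neg_one_zpow]
      · rw [if_neg fun h => hodd ((hmem w).mp h).2.1, (Int.not_odd_iff_even.mp hodd).neg_one_zpow]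
    · rw [hs2 (hl.imp (fun h => by rw [h, mul_div_cancel_right₀ _ hq])
        fun h => by rw [h, mul_div_cancel_right₀ _ hq]), one_zpow,
        if_neg fun h => hI ((hmem w).mp h).2.2]
  rw [finprod_congr hterm, finprod_eq_prod_of_mulSupport_subset (s := O) _ (fun w hw => by
      by_contra h; exact hw (if_neg h)),
    Finset.prod_congr rfl (fun w hw => if_pos hw), Finset.prod_const, hO.neg_one_pow] at h2
  have := congrArg (fun u : ℂˣ => (u : ℂ)) h2
  norm_num at this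

end GTower

end Fermat.LTG
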