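import Fermat.Agent.LTG.Gal.Frob

/-!
# Galois data: places of degree one with a prescribed Frobenius class

`exists_place` gives such a place with Frobenius generating a given cyclic subgroup of `Q₈`.
-/

set_option autoImplicit false

noncomputable section

open NumberField Fermat.CFT Fermat.LT Fermat.LT.Theta Fermat.LT.Theta.Gal
open scoped Classical

namespace Fermat.LTG

local notation "G₃" => GL (Fin 2) (ZMod 3)
local notation "M₃" => Matrix (Fin 2) (Fin 2) (ZMod 3)
local notation "Γℚ" => (AlgebraicClosure ℚ ≃ₐ[ℚ] AlgebraicClosure ℚ)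

namespace GenRho

variable {ρ : Γℚ →* GL (Fin 2) (ZMod 3)} (hρ : GenRho ρ)
  [FiniteDimensional ℚ (nField ρ)] [Normal ℚ (nField ρ)]
  {K L : Type} [Field K] [NumberField K] [Field L] [NumberField L] [Algebra K L]
  [Algebra L (nField ρ)] [Algebra K (nField ρ)] [IsScalarTower K L (nField ρ)]
  (T : GTower K L (nField ρ)) (hTe : ∀ σ, T.e (AlgEquiv.restrictNormalHom (nField ρ) σ) = ρ σ)

include hρ hTe

/-- **Places of degree one with Frobenius generating a given cyclic subgroup of `Q₈`.** -/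
theorem exists_place {X : G₃} (hX : IsQ (X : M₃)) (S : Finset (Pl L)) :
    ∃ (W : Pl (nField ρ)) (g : nField ρ ≃ₐ[L] nField ρ), plUnder L W ∉ S ∧
      plUnder L W ∉ T.ramN ∧ Congr g W (resCard (plUnder L W)) ∧
      resCard (plUnder L W) = resCard (plUnder K (plUnder L W)) ∧
      Subgroup.zpowers (T.eL g) = Subgroup.zpowers X := by
  have := T.isGalois_L
  -- a Frobenius generating the same subgroup as `X`, outside the excluded primes
  obtain ⟨σ₀, hσ₀⟩ := hρ.surjective X
  obtain ⟨ℓ, hℓ, hℓT, A, hA, -, φ, hφ, hgen⟩ := exists_frobenius_map_zpowers_eq ρ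
    (isOpen_ker hρ.continuous) σ₀ ((S ∪ T.ramN).image resCard)
  rw [hσ₀] at hgen
  -- it is in `Q₈`, so is given by some `g` fixing `L`
  have hQ : InQ8 (ρ φ) := by
    obtain ⟨k, hk⟩ := Subgroup.mem_zpowers_iff.mp (hgen ▸ Subgroup.mem_zpowers (ρ φ))
    rw [← hk]
    exact Fermat.RM.q8Sub.zpow_mem (Fermat.RM.mem_q8Sub.mpr ((inQ8_iff X).mpr hX)) k
  obtain ⟨g, hg⟩ := T.exists_eL_eq (X := ρ φ) ((inQ8_iff _).mp hQ)
  have hne : primeBelow (nField ρ) A ≠ ⊥ :=
    ne_bot_of_natCast_mem hℓ (natCast_mem_primeBelow _ hA)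
  set W : Pl (nField ρ) := ⟨primeBelow (nField ρ) A, inferInstance, hne⟩
  have hW : Congr g W ℓ := by
    refine (T.congr_iff_eq (g := AlgEquiv.restrictNormalHom (nField ρ) φ) (by rw [hg, hTe])).mp ?_
    intro x
    change _ ∈ Ideal.comap _ _
    rw [Ideal.mem_comap, map_sub, map_pow, algebraMap_restrict_smul]
    exact smul_sub_pow_mem hφ _
  -- as `g` fixes `L`, the residue fields in `L` and `K` below `W` have `ℓ` elements
  set w := plUnder L W with hw
  have hfix : ∀ x : 𝓞 L, algebraMap (𝓞 L) (𝓞 (nField ρ)) (x ^ ℓ - x) ∈ W.asIdeal := fun x => by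
    have h := hW (algebraMap (𝓞 L) (𝓞 (nField ρ)) x)
    have hgx : g • algebraMap (𝓞 L) (𝓞 (nField ρ)) x = algebraMap (𝓞 L) (𝓞 (nField ρ)) x :=
      RingOfIntegers.ext (g.commutes (x : L))
    rw [hgx, ← neg_mem_iff, neg_sub, ← map_pow, ← map_sub] at h
    exact h
  have hmw : (ℓ : 𝓞 L) ∈ w.asIdeal := by
    rw [hw, asIdeal_plUnder, Ideal.under, Ideal.mem_comap, map_natCast]
    exact natCast_mem_primeBelow _ hA
  have hqw : resCard w = ℓ := resCard_eq_of_pow hℓ hmw fun x => by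
    rw [hw, asIdeal_plUnder, Ideal.under, Ideal.mem_comap]
    exact hfix x
  have hqv : resCard (plUnder K w) = ℓ := resCard_eq_of_pow hℓ
    (by rw [asIdeal_plUnder, Ideal.under, Ideal.mem_comap, map_natCast]; exact hmw) fun x => by
    rw [asIdeal_plUnder, Ideal.under, Ideal.mem_comap, map_sub, map_pow, hw, asIdeal_plUnder,
      Ideal.under, Ideal.mem_comap]
    exact hfix _
  have hnot : w ∉ S ∪ T.ramN := fun h => hℓT (Finset.mem_image.mpr ⟨w, h, hqw⟩)
  rw [Finset.mem_union, not_or] at hnot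
  exact ⟨W, g, hnot.1, hnot.2, by rw [hqw]; exact hW, hqw.trans hqv.symm, by rw [hg, hgen]⟩

end GenRho

end Fermat.LTG
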