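import Fermat.Agent.LTG.Gal.Frob
import Fermat.Agent.LT.Theta.Gal.Inertia

/-!
# The place over `3` of `K` with one place in `L`

If `√-3` has a single place in `L` then `L/K` is wildly ramified there and `N/L` is unramified
there: the inertia group contains an element of order three, so it normalises a Sylow `3`-subgroup,
and it cannot contain two independent involutions.
-/

set_option autoImplicit false

noncomputable section

open NumberField IsDedekindDomain Fermat.CFT Fermat.LT Fermat.LT.Theta Fermat.LT.Theta.Gal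
open scoped Pointwise Classical

namespace Fermat.LTG

local notation "G₃" => GL (Fin 2) (ZMod 3)
local notation "M₃" => Matrix (Fin 2) (Fin 2) (ZMod 3)

section Lead

variable {K N : Type} [Field K] [NumberField K] [Field N] [NumberField N] [Algebra K N]
  {g h : N ≃ₐ[K] N} {W : Pl N} {π : 𝓞 N}

/-- An element whose product with a uniformiser is in `W²` lies in `W`. -/
lemma mem_of_mul_mem_sq (hπ2 : π ∉ W.asIdeal ^ 2) {a : 𝓞 N} (h : a * π ∈ W.asIdeal ^ 2) :
    a ∈ W.asIdeal :=
  ((Ideal.IsPrime.mul_mem_pow W.asIdeal h)).resolve_right hπ2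

/-- The elements fixing a uniformiser modulo `W²` are closed under products. -/
lemma fixSq_mul (hg : Congr g W 1) (hπ : π ∈ W.asIdeal) (h1 : g • π - π ∈ W.asIdeal ^ 2)
    (h2 : h • π - π ∈ W.asIdeal ^ 2) : (g * h) • π - π ∈ W.asIdeal ^ 2 := by
  have := hg.lead_mul (h := h) hπ (u := 1) (u' := 1) (by rwa [one_mul]) (by rwa [one_mul])
  rwa [one_mul, one_mul] at this

/-- Inertia elements of order three are wild. -/
lemma fixSq_of_cube (hg : Congr g W 1) (h3 : (3 : 𝓞 N) ∈ W.asIdeal) (hg3 : g ^ 3 = 1)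
    (hπ : π ∈ W.asIdeal) (hπ2 : π ∉ W.asIdeal ^ 2) : g • π - π ∈ W.asIdeal ^ 2 := by
  obtain ⟨u, hu⟩ := exists_sub_mul_mem hπ hπ2 (hg.smul_mem one_pos hπ)
  have h' : (g * g * g) • π - u * (u * u) * π ∈ W.asIdeal ^ 2 :=
    (hg.inert_mul hg).lead_mul hπ (hg.lead_mul hπ hu hu) hu
  rw [show g * g * g = 1 by rw [← hg3, pow_succ, pow_succ, pow_one], one_smul] at h'
  have hc : 1 - u * (u * u) ∈ W.asIdeal := mem_of_mul_mem_sq hπ2 (by rwa [sub_mul, one_mul])
  have hcube : (u - 1) ^ 3 ∈ W.asIdeal := by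
    rw [show (u - 1) ^ 3 = -(1 - u * (u * u)) - 3 * (u * u - u) by ring]
    exact sub_mem (neg_mem hc) (Ideal.mul_mem_right _ _ h3)
  have h1 : u - 1 ∈ W.asIdeal := W.isPrime.mem_of_pow_mem 3 hcube
  have := add_mem hu (mul_mem_sq h1 hπ)
  rwa [sub_mul, one_mul, sub_add_sub_cancel] at this

/-- Away from residue characteristic `2` an inertial involution negates a uniformiser modulo `w²`.
-/
lemma smul_add_mem_of_involution (hg : Congr g W 1) (h2 : ((2 : ℕ) : 𝓞 N) ∉ W.asIdeal)
    (hg2 : g * g = 1) (hg1 : g ≠ 1) (hπ : π ∈ W.asIdeal) (hπ2 : π ∉ W.asIdeal ^ 2) :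
    g • π - (-1) * π ∈ W.asIdeal ^ 2 := by
  obtain ⟨u, hu⟩ := exists_sub_mul_mem hπ hπ2 (hg.smul_mem one_pos hπ)
  have h' := hg.lead_mul hπ hu hu
  rw [hg2, one_smul] at h'
  have hc : (1 - u) * (1 + u) ∈ W.asIdeal := by
    rw [show (1 - u) * (1 + u) = 1 - u * u by ring]
    exact mem_of_mul_mem_sq hπ2 (by rwa [sub_mul, one_mul])
  rcases W.isPrime.mem_or_mem hc with h1 | h1
  · refine absurd (hg.eq_one_of_fix (r := 2) (by rw [pow_two, hg2]) h2 hπ hπ2 ?_) hg1
    have := sub_mem hu (mul_mem_sq h1 hπ)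
    rwa [sub_mul, one_mul, sub_sub, add_sub_cancel] at this
  · have := add_mem hu (mul_mem_sq h1 hπ)
    convert this using 1
    ring

/-- A product of two inertial involutions fixes a uniformiser modulo `W²`. -/
lemma fixSq_involutions (hg : Congr g W 1) (hh : Congr h W 1) (h2 : ((2 : ℕ) : 𝓞 N) ∉ W.asIdeal)
    (hg2 : g * g = 1) (hh2 : h * h = 1) (hg1 : g ≠ 1) (hh1 : h ≠ 1) (hπ : π ∈ W.asIdeal)
    (hπ2 : π ∉ W.asIdeal ^ 2) : (g * h) • π - π ∈ W.asIdeal ^ 2 := by
  have := hg.lead_mul (h := h) hπ (smul_add_mem_of_involution hg h2 hg2 hg1 hπ hπ2)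
    (smul_add_mem_of_involution hh h2 hh2 hh1 hπ hπ2)
  rwa [neg_mul_neg, one_mul, one_mul] at this

/-- Inertia fixes the place. -/
lemma smul_eq_self_of_inert (hg : Congr g W 1) : g • W = W := by
  refine HeightOneSpectrum.ext ?_
  have : g • W.asIdeal ≤ W.asIdeal := by
    rw [Ideal.pointwise_smul_def, Ideal.map_le_iff_le_comap]
    exact fun x hx => hg.smul_mem one_pos hx
  exact (g • W).isMaximal.eq_of_le W.isPrime.ne_top this

end Lead

section Lift

variable {K L N : Type} [Field K] [NumberField K] [Field L] [NumberField L] [Algebra K L]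
  [Field N] [NumberField N] [Algebra L N] [Algebra K N] [IsScalarTower K L N]

omit [NumberField K] [NumberField L] [NumberField N] in
/-- A lifted automorphism moves a place to one over the moved place. -/
lemma plUnder_liftNormal_smul [Normal K N] (s : L ≃ₐ[K] L) (W : Pl N) :
    plUnder L (s.liftNormal N • W) = s • plUnder L W := by
  refine HeightOneSpectrum.ext (SetLike.ext fun x => ?_)
  rw [asIdeal_plUnder, Ideal.under, Ideal.mem_comap, smul_asIdeal,
    Ideal.mem_pointwise_smul_iff_inv_smul_mem, smul_asIdeal (g := s),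
    Ideal.mem_pointwise_smul_iff_inv_smul_mem, asIdeal_plUnder, Ideal.under, Ideal.mem_comap]
  have e : (s.liftNormal N)⁻¹ • algebraMap (𝓞 L) (𝓞 N) x = algebraMap (𝓞 L) (𝓞 N) (s⁻¹ • x) := by
    rw [inv_smul_eq_iff]
    refine RingOfIntegers.ext ?_
    change algebraMap L N (x : L) = s.liftNormal N (algebraMap L N (s⁻¹ (x : L)))
    rw [AlgEquiv.liftNormal_commutes, ← AlgEquiv.mul_apply, mul_inv_cancel, AlgEquiv.one_apply]
  rw [e]

end Lift

section Finite

/-- In `SL₂(𝔽₃)` a fourth power that is not `1` has order three. -/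
lemma det_one_pow_four (X : M₃) : X.det = 1 → X * X * (X * X) ≠ 1 →
    (X * X * (X * X)) * (X * X * (X * X)) * (X * X * (X * X)) = 1 := by
  refine forall_mat (P := fun X => X.det = 1 → X * X * (X * X) ≠ 1 →
    (X * X * (X * X)) * (X * X * (X * X)) * (X * X * (X * X)) = 1) ?_ X
  intro a b c d
  simp only [mat_mul, mat_one, det_mat, Ne, mat_inj]
  revert a b c d
  decide

/-- The elements of `Q₈` have fourth power `1`. -/
lemma isQ_pow_four {X : M₃} (h : IsQ X) : X * X * (X * X) = 1 := by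
  rcases h with rfl | rfl | h
  · simp
  · simp
  · rw [isI_mul_self h, neg_mul_neg, one_mul]

set_option synthInstance.maxSize 256 in -- headroom for the `Decidable` instance of the statement
/-- The elements of `SL₂(𝔽₃)` with fourth power `1` lie in `Q₈`. -/
lemma not_isQ_pow_four (X : M₃) : X.det = 1 → X * X * (X * X) = 1 → IsQ X := by
  refine forall_mat (P := fun X => X.det = 1 → X * X * (X * X) = 1 → IsQ X) ?_ X
  intro a b c d
  simp only [IsQ, isI_mat, mat_mul, mat_one, mat_neg, det_mat, mat_inj]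
  revert a b c d
  decide

set_option synthInstance.maxSize 256 in -- headroom for the `Decidable` instance of the statement
/-- An element of determinant `-1` does not commute with its conjugate by an element of order
three. -/
lemma not_comm_conj (U S : M₃) : U.det = 1 → U * (U * U) = 1 → U ≠ 1 → S.det = -1 →
    S * (U * S * (U * U)) ≠ U * S * (U * U) * S := by
  refine forall_mat (P := fun U => U.det = 1 → U * (U * U) = 1 → U ≠ 1 → S.det = -1 →
    S * (U * S * (U * U)) ≠ U * S * (U * U) * S) (fun a b c d => ?_) U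
  refine forall_mat (P := fun S => (mat a b c d).det = 1 → mat a b c d *
    (mat a b c d * mat a b c d) = 1 →
    mat a b c d ≠ 1 → S.det = -1 → S * (mat a b c d * S * (mat a b c d * mat a b c d)) ≠
      mat a b c d * S * (mat a b c d * mat a b c d) * S) ?_ S
  intro a' b' c' d' hd hU h1
  simp only [mat_mul, mat_one, det_mat, Ne, mat_inj] at hd hU h1 ⊢
  revert a' b' c' d'
  revert hd hU h1 a b c d
  decide

set_option synthInstance.maxSize 512 in -- headroom for the `Decidable` instance of the statement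
/-- Two elements of order three lie in one subgroup, or `U V` or `U V²` is nontrivial with fourth
power `1`. -/
lemma sylow_prod (U V : M₃) : U.det = 1 → U * (U * U) = 1 → U ≠ 1 → V.det = 1 →
    V * (V * V) = 1 → V ≠ 1 → V = U ∨ V = U * U ∨
    (U * V ≠ 1 ∧ U * V * (U * V) * (U * V * (U * V)) = 1) ∨
    (U * (V * V) ≠ 1 ∧ U * (V * V) * (U * (V * V)) * (U * (V * V) * (U * (V * V))) = 1) := by
  refine forall_mat (P := fun U => U.det = 1 → U * (U * U) = 1 → U ≠ 1 → V.det = 1 →
    V * (V * V) = 1 → V ≠ 1 → V = U ∨ V = U * U ∨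
    (U * V ≠ 1 ∧ U * V * (U * V) * (U * V * (U * V)) = 1) ∨
    (U * (V * V) ≠ 1 ∧ U * (V * V) * (U * (V * V)) * (U * (V * V) * (U * (V * V))) = 1))
    (fun a b c d => ?_) U
  refine forall_mat (P := fun V => (mat a b c d).det = 1 →
    mat a b c d * (mat a b c d * mat a b c d) = 1 → mat a b c d ≠ 1 → V.det = 1 →
    V * (V * V) = 1 → V ≠ 1 → V = mat a b c d ∨ V = mat a b c d * mat a b c d ∨
    (mat a b c d * V ≠ 1 ∧ mat a b c d * V * (mat a b c d * V) *
      (mat a b c d * V * (mat a b c d * V)) = 1) ∨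
    (mat a b c d * (V * V) ≠ 1 ∧ mat a b c d * (V * V) * (mat a b c d * (V * V)) *
      (mat a b c d * (V * V) * (mat a b c d * (V * V))) = 1)) ?_ V
  intro a' b' c' d' hd hU h1
  simp only [mat_mul, mat_one, det_mat, Ne, mat_inj] at hd hU h1 ⊢
  revert a' b' c' d'
  revert hd hU h1 a b c d
  decide

set_option synthInstance.maxSize 512 in -- headroom for the `Decidable` instance of the statement
/-- Normalisers of a subgroup of order three: of determinant `-1` involutions, in `Q₈` only `±1`. -/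
lemma normaliser (U S : M₃) : U.det = 1 → U * (U * U) = 1 → U ≠ 1 →
    (S * U = U * S ∨ S * U = U * U * S) →
    (S.det = -1 → S * S = 1) ∧ (IsQ S → S = 1 ∨ S = -1) := by
  refine forall_mat (P := fun U => U.det = 1 → U * (U * U) = 1 → U ≠ 1 →
    (S * U = U * S ∨ S * U = U * U * S) →
    (S.det = -1 → S * S = 1) ∧ (IsQ S → S = 1 ∨ S = -1)) (fun a b c d => ?_) U
  refine forall_mat (P := fun S => (mat a b c d).det = 1 →
    mat a b c d * (mat a b c d * mat a b c d) = 1 → mat a b c d ≠ 1 →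
    (S * mat a b c d = mat a b c d * S ∨ S * mat a b c d = mat a b c d * mat a b c d * S) →
    (S.det = -1 → S * S = 1) ∧ (IsQ S → S = 1 ∨ S = -1)) ?_ S
  intro a' b' c' d' hd hU h1
  simp only [IsQ, isI_mat, mat_mul, mat_one, mat_neg, det_mat, Ne, mat_inj] at hd hU h1 ⊢
  revert a' b' c' d'
  revert hd hU h1 a b c d
  decide

end Finite

namespace GTower

open GL2Tower

variable {K L N : Type} [Field K] [NumberField K] [Field L] [NumberField L] [Algebra K L]
  [Field N] [NumberField N] [Algebra L N] [Algebra K N] [IsScalarTower K L N]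
  (T : GTower K L N)

include T

/-- The two determinants agree. -/
lemma det_eq_one_iff (g : N ≃ₐ[ℚ] N) : (T.e g : M₃).det = 1 ↔
    Matrix.GeneralLinearGroup.det (T.e g) = 1 := by
  rw [Units.ext_iff, Units.val_one, Matrix.GeneralLinearGroup.val_det_apply]

/-- A place of `N` over a place of `L` fixed by `L/K` has an element of order three in its
decomposition group. -/
lemma exists_stab_order_three {w : Pl L} (hstab : ∀ s : L ≃ₐ[K] L, s • w = w) {W : Pl N}
    (hW : plUnder L W = w) : ∃ x : N ≃ₐ[ℚ] N, x • W = W ∧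
      (T.e x : M₃).det = 1 ∧ (T.e x : M₃) * (T.e x * T.e x) = 1 ∧ (T.e x : M₃) ≠ 1 := by
  have := T.galois
  have := T.isGalois_L
  have := T.isGalois_K
  have := T.isGalois_KL
  -- lift a nontrivial automorphism of `L/K` and correct it so that it fixes `W`
  obtain ⟨s, hs1⟩ : ∃ s : L ≃ₐ[K] L, s ≠ 1 := by
    have : Nontrivial (L ≃ₐ[K] L) := Finite.one_lt_card_iff_nontrivial.mp (by
      rw [IsGalois.card_aut_eq_finrank, T.finrank_KL]; norm_num)
    exact exists_ne 1
  set t : N ≃ₐ[K] N := s.liftNormal N with ht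
  have hu : plUnder L (t • W) = w := by rw [ht, plUnder_liftNormal_smul, hW, hstab]
  obtain ⟨r, hr⟩ := exists_smul_eq_of_plUnder_eq (K := L) (w := t • W) (w' := W) (by rw [hu, hW])
  set g : N ≃ₐ[ℚ] N := r.restrictScalars ℚ * t.restrictScalars ℚ with hgdef
  have hgW : g • W = W := by
    refine HeightOneSpectrum.ext ?_
    have := congrArg HeightOneSpectrum.asIdeal hr
    rw [smul_asIdeal, smul_asIdeal, Ideal.pointwise_smul_def, Ideal.pointwise_smul_def,
      Ideal.map_map] at this
    rw [smul_asIdeal, Ideal.pointwise_smul_def]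
    exact this
  have hdet : (T.e g : M₃).det = 1 := (T.det_eq_one_iff g).mpr ((T.fixK g).mp fun x => by
    change r (t (algebraMap K N x)) = _
    rw [t.commutes, IsScalarTower.algebraMap_apply K L N, r.commutes])
  -- it is not in the quaternion subgroup, as it moves `L`
  have hne : (T.e g : M₃) * T.e g * (T.e g * T.e g) ≠ 1 := by
    intro h
    have hQ := (inQ8_iff _).mpr (not_isQ_pow_four _ hdet h)
    refine hs1 (AlgEquiv.ext fun x => (algebraMap L N).injective ?_)
    have h' := (T.fixL g).mpr hQ x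
    rw [AlgEquiv.one_apply]
    rw [show g (algebraMap L N x) = r (t (algebraMap L N x)) from rfl, ht,
      AlgEquiv.liftNormal_commutes, r.commutes] at h'
    exact h'
  -- its fourth power has order three
  refine ⟨g * g * (g * g), ?_, ?_, ?_, ?_⟩
  · simp only [mul_smul, hgW]
  · simp only [map_mul, Units.val_mul, Matrix.det_mul, hdet, mul_one]
  · simp only [map_mul, Units.val_mul]
    rw [← Matrix.mul_assoc]
    exact det_one_pow_four _ hdet hne
  · simpa only [map_mul, Units.val_mul] using hne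

/-- Inertia fixing the uniformiser modulo the square has no point of order four. -/
lemma pow_four_ne_one_of_fixSq {W : Pl N} (h3W : (3 : 𝓞 N) ∈ W.asIdeal) {π : 𝓞 N}
    (hπ : π ∈ W.asIdeal) (hπ2 : π ∉ W.asIdeal ^ 2) {z : N ≃ₐ[ℚ] N} (hz : Congr z W 1)
    (hfz : z • π - π ∈ W.asIdeal ^ 2) (hz1 : (T.e z : M₃) ≠ 1) :
    (T.e z : M₃) * T.e z * (T.e z * T.e z) ≠ 1 := by
  intro h4
  refine hz1 ?_
  have hz4 : z ^ 4 = 1 := T.e.injective (by
    rw [map_one, map_pow]
    exact Units.ext (by
      rw [Units.val_pow_eq_pow_val, Units.val_one, pow_succ, pow_succ, pow_succ, pow_one,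
        Matrix.mul_assoc (_ * _), h4]))
  rw [hz.eq_one_of_fix hz4 (not_mem_of_three h3W (by norm_num)) hπ hπ2 hfz, map_one, Units.val_one]

/-- Inertia normalises a subgroup of order three of inertia. -/
lemma inert_normalises {W : Pl N} (h3W : (3 : 𝓞 N) ∈ W.asIdeal) {p j : N ≃ₐ[ℚ] N} (hp : Congr p W 1)
    (hpd : (T.e p : M₃).det = 1) (hp3 : (T.e p : M₃) * (T.e p * T.e p) = 1) (hp1 : (T.e p : M₃) ≠ 1)
    (hj : Congr j W 1) :
    (T.e j : M₃) * T.e p = T.e p * T.e j ∨ (T.e j : M₃) * T.e p = T.e p * T.e p * T.e j := by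
  obtain ⟨π, hπ, hπ2⟩ := SetLike.exists_of_lt
    (Ideal.pow_lt_self W.asIdeal W.ne_bot W.isPrime.ne_top 2 le_rfl)
  have hp3' : p ^ 3 = 1 := T.e.injective (by
    rw [map_one, map_pow]
    exact Units.ext (by
      rw [Units.val_pow_eq_pow_val, Units.val_one, pow_succ', pow_two, hp3]))
  have hjW : j • W = W := smul_eq_self_of_inert hj
  -- the conjugate `q` of `p` by `j` is inertial of order three too
  set q := j * p * j⁻¹
  have hq : Congr q W 1 := by
    have := hp.conj j
    rwa [hjW] at this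
  have hq3' : q ^ 3 = 1 := by rw [conj_pow, hp3', mul_one, mul_inv_cancel]
  have hqm : (T.e q : M₃) = T.e j * T.e p * ((T.e j)⁻¹ : G₃).val := by
    simp only [q, map_mul, map_inv, Units.val_mul]
  have hqd : (T.e q : M₃).det = 1 := by rw [hqm, Matrix.det_units_conj, hpd]
  have hq3 : (T.e q : M₃) * (T.e q * T.e q) = 1 := by
    rw [← Units.val_mul, ← Units.val_mul, ← map_mul, ← map_mul,
      show q * (q * q) = q ^ 3 by rw [pow_succ', pow_two], hq3', map_one, Units.val_one]
  have hq1 : (T.e q : M₃) ≠ 1 := by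
    intro h
    refine hp1 ?_
    rw [hqm] at h
    calc (T.e p : M₃) = ((T.e j)⁻¹ : G₃).val * (T.e j * T.e p * ((T.e j)⁻¹ : G₃).val) * T.e j := by
          simp [Matrix.mul_assoc]
      _ = 1 := by rw [h]; simp
  -- both fix a uniformiser modulo `W ^ 2`
  have hfp := fixSq_of_cube hp h3W hp3' hπ hπ2
  have hfq := fixSq_of_cube hq h3W hq3' hπ hπ2
  have hconj : (T.e j : M₃) * T.e p = T.e q * T.e j := by rw [hqm]; simp [Matrix.mul_assoc]
  -- `q` is `p` or `p²`: else `p q` or `p q²` is wild with fourth power one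
  rcases sylow_prod _ _ hpd hp3 hp1 hqd hq3 hq1 with h | h | ⟨h, h'⟩ | ⟨h, h'⟩
  · exact Or.inl (by rw [hconj, h])
  · exact Or.inr (by rw [hconj, h])
  · refine absurd ?_ (T.pow_four_ne_one_of_fixSq h3W hπ hπ2 (z := p * q) (hp.inert_mul hq)
      (fixSq_mul hp hπ hfp hfq) (by simpa using h))
    simpa using h'
  · refine absurd ?_ (T.pow_four_ne_one_of_fixSq h3W hπ hπ2 (z := p * (q * q))
      (hp.inert_mul (hq.inert_mul hq))
      (fixSq_mul hp hπ hfp (fixSq_mul hq hπ hfq hfq)) (by simpa using h))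
    simpa using h'

/-- With an inertia element of order three above it a place fixed by `L/K` is totally ramified. -/
lemma ramIdx_eq_three_of_inert {w : Pl L} (hstab : ∀ s : L ≃ₐ[K] L, s • w = w) {W : Pl N}
    (hW : plUnder L W = w) {p : N ≃ₐ[ℚ] N} (hp : Congr p W 1) (hpd : (T.e p : M₃).det = 1)
    (hp3 : (T.e p : M₃) * (T.e p * T.e p) = 1) (hp1 : (T.e p : M₃) ≠ 1) :
    plRamIdx K w = 3 ∧ resCard w = resCard (plUnder K w) := by
  have := T.galois
  have := T.isGalois_L
  have := T.isGalois_K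
  have := T.isGalois_KL
  set pK : N ≃ₐ[K] N := AlgEquiv.ofRingEquiv (f := p.toRingEquiv)
    ((T.fixK p).mpr ((T.det_eq_one_iff p).mp hpd))
  have hpK : Congr pK W 1 := fun x => hp x
  have hne1 : pK.restrictNormal L ≠ 1 := by
    intro h
    have hQ := isQ_pow_four ((inQ8_iff _).mp ((T.fixL p).mp fun x => by
      have h' := AlgEquiv.restrictNormal_commutes pK L x
      rw [h] at h'
      exact h'.symm))
    refine hp1 ?_
    rw [← Matrix.mul_assoc] at hp3
    rw [← Matrix.mul_assoc, hp3, one_mul] at hQ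
    exact hQ
  have hne : plRamIdx K w ≠ 1 := hW ▸ plRamIdx_ne_one_of_inert hpK.restrictNormal hne1
  obtain ⟨h1, h2⟩ := stabilizer_card_eq (K := K) w
  rw [show MulAction.stabilizer (L ≃ₐ[K] L) w = ⊤ from
    eq_top_iff.mpr fun g _ => MulAction.mem_stabilizer_iff.mpr (hstab g),
    Subgroup.card_top, IsGalois.card_aut_eq_finrank, T.finrank_KL] at h1
  rcases (Nat.dvd_prime Nat.prime_three).mp ⟨_, h1⟩ with h | h
  · exact absurd h hne
  · rw [h] at h1
    exact ⟨h, by rw [h2, show (plUnder K w).asIdeal.inertiaDeg' w.asIdeal = 1 by omega, pow_one]⟩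

variable {ζ : K} (hζ : IsPrimitiveRoot ζ 3)

include hζ

/-- Inertia over `3` is not inside `SL₂`. -/
lemma exists_inert_det {W : Pl N} (h3 : (3 : 𝓞 N) ∈ W.asIdeal) :
    ∃ i : N ≃ₐ[ℚ] N, Congr i W 1 ∧ (T.e i : M₃).det = -1 := by
  have := T.galois
  have := T.isGalois_K
  have : Algebra.IsQuadraticExtension ℚ K := ⟨T.finrank_K⟩
  have : IsGalois ℚ K := inferInstance
  obtain ⟨v, -, hv, huniq⟩ := exists_v3 T.finrank_K hζ
  have huv : plUnder K W = v := huniq _ (three_mem_plUnder.mpr h3)
  -- `3` ramifies in `K`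
  have he : 2 ≤ plRamIdx ℚ (plUnder K W) := by
    rw [huv]
    rcases quadratic_cases (K := ℚ) (w := v) T.finrank_K (fun g => by
      refine huniq _ ?_
      rw [smul_asIdeal, Ideal.mem_pointwise_smul_iff_inv_smul_mem,
        show g⁻¹ • (3 : 𝓞 K) = 3 from map_ofNat (MulSemiringAction.toRingHom _ (𝓞 K) g⁻¹) 3]
      exact huv ▸ three_mem_plUnder.mpr h3) with ⟨-, h⟩ | ⟨h, -⟩
    · rw [hv] at h
      have := Nat.pow_le_pow_left (show 2 ≤ resCard (plUnder ℚ v) from one_lt_resCard _) 2
      norm_num at this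
      omega
    · omega
  -- if inertia had determinant one throughout, it would fix `K`
  by_contra hno
  push Not at hno
  have hdet : ∀ i : N ≃ₐ[ℚ] N, Congr i W 1 → (T.e i : M₃).det = 1 := fun i hi => by
    have h0 : ∀ x : ZMod 3, x ≠ 0 → x ≠ -1 → x = 1 := by decide
    refine h0 _ ?_ (hno i hi)
    rw [← Matrix.GeneralLinearGroup.val_det_apply]
    exact Units.ne_zero _
  have hcardI : ∀ (E : Type) [Field E] [NumberField E] [Algebra E N] [IsGalois E N],
      Nat.card (W.asIdeal.inertia (N ≃ₐ[E] N)) = plRamIdx E W := fun E _ _ _ _ => by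
    have : Finite (𝓞 E ⧸ (plUnder E W).asIdeal) :=
      Ideal.finiteQuotientOfFreeOfNeBot _ (plUnder E W).ne_bot
    rw [Ideal.card_inertia_eq_ramificationIdxIn (G := N ≃ₐ[E] N) (plUnder E W).asIdeal W.asIdeal,
      Ideal.ramificationIdxIn_eq_ramificationIdx (plUnder E W).asIdeal W.asIdeal (N ≃ₐ[E] N),
      ← plRamIdx_eq]
  -- so it is no larger over `ℚ` than over `K`, against the tower formula
  have hle : Nat.card (W.asIdeal.inertia (N ≃ₐ[ℚ] N)) ≤
      Nat.card (W.asIdeal.inertia (N ≃ₐ[K] N)) := by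
    refine Nat.card_le_card_of_injective (fun i => ⟨AlgEquiv.ofRingEquiv (f := i.1.toRingEquiv)
      ((T.fixK i.1).mpr ((T.det_eq_one_iff _).mp (hdet i.1 (Congr.one_iff.mpr i.2)))),
      fun x => i.2 x⟩) ?_
    intro a b hab
    exact Subtype.ext (AlgEquiv.ext fun x =>
      congrArg (fun f : W.asIdeal.inertia (N ≃ₐ[K] N) => (f : N ≃ₐ[K] N) x) hab)
  rw [hcardI ℚ, hcardI K, plRamIdx_tower (K := ℚ) (N := K) W] at hle
  have hpos := plRamIdx_pos (K := K) W
  nlinarith

/-- Inertia over `√-3` has an element of order three. -/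
lemma exists_inert_order_three {w : Pl L} (hstab : ∀ s : L ≃ₐ[K] L, s • w = w)
    (h3 : (3 : 𝓞 L) ∈ w.asIdeal) {W : Pl N} (hW : plUnder L W = w) : ∃ p : N ≃ₐ[ℚ] N, Congr p W 1 ∧
      (T.e p : M₃).det = 1 ∧ (T.e p : M₃) * (T.e p * T.e p) = 1 ∧ (T.e p : M₃) ≠ 1 := by
  have h3W : (3 : 𝓞 N) ∈ W.asIdeal := three_mem_plUnder.mp (hW ▸ h3)
  obtain ⟨x, hxW, hxd, hx3, hx1⟩ := T.exists_stab_order_three hstab hW
  obtain ⟨i, hi, hid⟩ := T.exists_inert_det hζ h3W
  by_contra hno
  -- the commutator `c` of inertia elements `x i x⁻¹` and `i` has determinant one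
  have hi' : Congr (x * i * x⁻¹) W 1 := by
    have := hi.conj x
    rwa [hxW] at this
  set c := (x * i * x⁻¹ * i)⁻¹ * (i * (x * i * x⁻¹)) with hc
  have hcI : Congr c W 1 := ((hi'.inert_mul hi).inert_inv).inert_mul (hi.inert_mul hi')
  have hcd : (T.e c : M₃).det = 1 := by
    have hinv : (T.e c : M₃).det =
        ((T.e (x * i * x⁻¹ * i))⁻¹ : G₃).val.det * (T.e (i * (x * i * x⁻¹)) : M₃).det := by
      rw [hc, map_mul, map_inv, Units.val_mul, Matrix.det_mul]
    have hsame : (T.e (i * (x * i * x⁻¹)) : M₃).det = (T.e (x * i * x⁻¹ * i) : M₃).det := by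
      rw [map_mul, map_mul _ (x * i * x⁻¹), Units.val_mul, Units.val_mul, Matrix.det_mul,
        Matrix.det_mul, mul_comm]
    rw [hinv, hsame, ← Matrix.det_mul, Units.inv_mul, Matrix.det_one]
  -- its fourth power is one, else that power would be as wanted
  have hc4 : c ^ 4 = 1 := by
    apply T.e.injective
    rw [map_one, map_pow]
    apply Units.ext
    rw [Units.val_pow_eq_pow_val, Units.val_one, pow_succ, pow_succ, pow_succ, pow_one,
      Matrix.mul_assoc (_ * _)]
    by_contra hne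
    refine hno ⟨c * c * (c * c), (hcI.inert_mul hcI).inert_mul (hcI.inert_mul hcI), ?_, ?_, ?_⟩
    · simp only [map_mul, Units.val_mul, Matrix.det_mul, hcd, mul_one]
    · simp only [map_mul, Units.val_mul]
      rw [← Matrix.mul_assoc]
      exact det_one_pow_four _ hcd hne
    · simpa only [map_mul, Units.val_mul] using hne
  -- so the two commute, which `not_comm_conj` forbids
  have hcomm := hi.inert_comm hi' (r := 4) hc4 (not_mem_of_three h3W (by norm_num))
  refine not_comm_conj _ _ hxd hx3 hx1 hid ?_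
  have hinv : ((T.e x)⁻¹ : G₃) = T.e x * T.e x := inv_eq_of_mul_eq_one_right
    (Units.ext (by rw [Units.val_mul, Units.val_mul, hx3, Units.val_one]))
  have h' := congrArg (fun g => (T.e g : M₃)) hcomm
  simpa only [map_mul, map_inv, hinv, Units.val_mul] using h'

/-- With an element of order three in inertia over `3` there is no inertia in `N/L`. -/
lemma not_inert_of_order_three {W : Pl N} (h3W : (3 : 𝓞 N) ∈ W.asIdeal)
    (hex : ∃ p : N ≃ₐ[ℚ] N, Congr p W 1 ∧
      (T.e p : M₃).det = 1 ∧ (T.e p : M₃) * (T.e p * T.e p) = 1 ∧ (T.e p : M₃) ≠ 1)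
    {y : N ≃ₐ[L] N} (hy : Congr y W 1) (hy1 : y ≠ 1) : False := by
  have h2W := not_mem_of_three h3W (r := 2) (by norm_num)
  obtain ⟨π, hπ, hπ2⟩ := SetLike.exists_of_lt
    (Ideal.pow_lt_self W.asIdeal W.ne_bot W.isPrime.ne_top 2 le_rfl)
  obtain ⟨p, hp, hpd, hp3, hp1⟩ := hex
  obtain ⟨i, hi, hid⟩ := T.exists_inert_det hζ h3W
  have hyQ : Congr (y.restrictScalars ℚ) W 1 := congr_restrict.mpr hy
  have hy1' : (T.e (y.restrictScalars ℚ) : M₃) ≠ 1 := fun h => hy1 (T.eL_injective (Units.ext (by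
    rw [map_one, Units.val_one, eL_apply]; exact h)))
  have hyneg : (T.e (y.restrictScalars ℚ) : M₃) = -1 :=
    (((normaliser _ _ hpd hp3 hp1 (T.inert_normalises h3W hp hpd hp3 hp1 hyQ)).2
      (T.eL_isQ y)).resolve_left hy1')
  have hi2 : (T.e i : M₃) * T.e i = 1 :=
    (normaliser _ _ hpd hp3 hp1 (T.inert_normalises h3W hp hpd hp3 hp1 hi)).1 hid
  have hy2 : (y.restrictScalars ℚ) * (y.restrictScalars ℚ) = 1 := T.e.injective (Units.ext (by
    rw [map_mul, Units.val_mul, hyneg, neg_mul_neg, one_mul, map_one, Units.val_one]))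
  have hi2' : i * i = 1 := T.e.injective (Units.ext (by
    rw [map_mul, Units.val_mul, hi2, map_one, Units.val_one]))
  have hi1 : i ≠ 1 := fun h => by
    rw [h, map_one, Units.val_one, Matrix.det_one] at hid
    exact absurd hid (by decide)
  have hy1'' : y.restrictScalars ℚ ≠ 1 := fun h => hy1' (by rw [h, map_one, Units.val_one])
  have hz2 : (y.restrictScalars ℚ * i) ^ 2 = 1 := T.e.injective (Units.ext (by
    rw [pow_two, map_mul, map_mul, Units.val_mul, Units.val_mul, hyneg, map_one, Units.val_one]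
    simp [hi2]))
  have hz := (hyQ.inert_mul hi).eq_one_of_fix hz2 h2W hπ hπ2
    (fixSq_involutions hyQ hi h2W hy2 hi2' hy1'' hi1 hπ hπ2)
  have hd := congrArg (fun g => (T.e g : M₃).det) hz
  simp only [map_mul, map_one, Units.val_mul, Units.val_one, Matrix.det_mul, hyneg, hid,
    Matrix.det_neg, Matrix.det_one, Fintype.card_fin] at hd
  revert hd; decide

/-- **The wild place over `√-3`.** A place of `L` over `3`, alone over its place of `K`, has
ramification index `3` over `K`, residue field of `3` elements and is unramified in `N`. -/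
theorem wild3 {w : Pl L} (h3 : (3 : 𝓞 L) ∈ w.asIdeal)
    (huniq : ∀ w' : Pl L, plUnder K w' = plUnder K w → w' = w) :
    plRamIdx K w = 3 ∧ resCard w = 3 ∧ w ∉ T.ramN := by
  have := T.galois
  have := T.isGalois_L
  have := T.isGalois_K
  have := T.isGalois_KL
  have hstab : ∀ s : L ≃ₐ[K] L, s • w = w := fun s => huniq _ (plUnder_smul s w)
  obtain ⟨W₀, hW₀⟩ := CFT.exists_plUnder_eq (F := N) w
  obtain ⟨p₀, hp₀, hpd₀, hp3₀, hp1₀⟩ := T.exists_inert_order_three hζ hstab h3 hW₀
  obtain ⟨he, hres⟩ := T.ramIdx_eq_three_of_inert hstab hW₀ hp₀ hpd₀ hp3₀ hp1₀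
  obtain ⟨v, -, hv, hu⟩ := exists_v3 T.finrank_K hζ
  refine ⟨he, by rw [hres, hu _ (three_mem_plUnder.mpr h3), hv], fun hr => ?_⟩
  have := T.isGalois_L
  refine T.mem_ramN.mp hr fun W hW => plRamIdx_eq_one_of_inertia W fun y hy =>
    by_contra fun hy1 => ?_
  have h3W : (3 : 𝓞 N) ∈ W.asIdeal := three_mem_plUnder.mp (hW ▸ h3)
  exact T.not_inert_of_order_three hζ h3W (T.exists_inert_order_three hζ hstab h3 hW)
    (Congr.one_iff.mpr hy) hy1

end GTower

end Fermat.LTG
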