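import Fermat.Agent.LTG.Gal.Cheb
import Fermat.Agent.LTG.Gal.Alpha
import Fermat.Agent.LTG.Gal.Wild3

/-!
# The Galois data of a surjective mod `3` representation

`GalData K L ρ ι lam R` collects what the theta series, the descent and the test functions need:
the eigenvalues `lam`, the finite set `R` of the places of `L` ramified in `N`, the Hecke character
data off `R`, the separating elements, and the behaviour at the wild place over `√-3`.
-/

set_option autoImplicit false

noncomputable section

open NumberField Fermat.CFT Fermat.LT Fermat.LT.Theta Fermat.LT.Theta.Gal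
open scoped Classical

namespace Fermat.LTG

local notation "G₃" => GL (Fin 2) (ZMod 3)
local notation "M₃" => Matrix (Fin 2) (Fin 2) (ZMod 3)
local notation "ℚbar" => AlgebraicClosure ℚ
local notation "Γℚ" => (AlgebraicClosure ℚ ≃ₐ[ℚ] AlgebraicClosure ℚ)

/-- **The Galois data**: `K = ℚ(√-3)` and `L/K` cyclic cubic; `lam` is `√N(w)` times the trace of
the lift of `ρ` at Frobenius off `R`, and Galois invariant; it comes from a Hecke
character of order four (`hecke`), is separated from Eisenstein parameters by elements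
(`killElement`) and is nonzero at infinitely many split places (`split_ne_zero`); at a wild place
the ramification index is `3`, the norm is `3` and the place is outside `R` (`wild`). -/
structure GalData (K L : Type) [Field K] [NumberField K] [Field L] [NumberField L] [Algebra K L]
    (ρ : Γℚ →* GL (Fin 2) (ZMod 3)) (ι : L →+* ℚbar) (lam : Pl L → ℝ) (R : Finset (Pl L)) :
    Prop where
  /-- `L/K` is Galois. -/
  galoisKL : IsGalois K L
  /-- `K` is totally complex. -/
  totallyComplexK : IsTotallyComplex K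
  /-- `L` is totally complex. -/
  totallyComplexL : IsTotallyComplex L
  /-- `K` is quadratic over `ℚ`. -/
  degreeK : Module.finrank ℚ K = 2
  /-- `L/K` has degree three. -/
  degree : Module.finrank K L = 3
  /-- `K` contains a primitive cube root of unity. -/
  zeta3 : ∃ ζ : K, IsPrimitiveRoot ζ 3
  /-- One place of `K` lies over `3`; it has norm three and is fixed by automorphisms. -/
  exists_v3 : ∃ v : Pl K, (3 : 𝓞 K) ∈ v.asIdeal ∧ pnorm v = 3 ∧
    (∀ u : Pl K, (3 : 𝓞 K) ∈ u.asIdeal → u = v) ∧ ∀ g : K ≃+* K, mapPlace g v = v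
  /-- Off `R` the eigenvalue is `√N w` times the lifted trace at a Frobenius. -/
  eigen : ∀ w ∉ R, ∀ A : ValuationSubring ℚbar,
    (∀ x : 𝓞 L, x ∈ w.asIdeal ↔ ι (x : L) ∈ A.nonunits) →
    ∀ σ : Γℚ, (∀ x, σ (ι x) = ι x) → A.IsFrobeniusAt σ (pnorm w) →
      lam w = Real.sqrt (pnorm w) * (liftTr (ρ σ) : ℝ)
  /-- The eigenvalues are invariant under the automorphisms of `L`. -/
  invariant : ∀ (g : L ≃+* L) (w : Pl L), lam (mapPlace g w) = lam w
  /-- Each eigenvalue is `0` or `± 2 √N w`. -/
  lam_cases : ∀ w : Pl L, lam w = 0 ∨ lam w = 2 * Real.sqrt (pnorm w) ∨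
    lam w = -2 * Real.sqrt (pnorm w)
  /-- The eigenvalues come from a character of order four of a quadratic extension. -/
  hecke : ∃ (M : Type) (_ : Field M) (_ : NumberField M) (_ : Algebra L M) (σ : M ≃ₐ[L] M),
    Nonempty (HData σ lam R)
  /-- For each finite set and depth some element that deep on the set has Satake product off it
  different from one. -/
  killElement : ∀ (S : Finset (Pl L)) (n : ℕ), ∃ α : Lˣ,
    (∀ w ∈ S, CloseOne w ((n + 1 : ℕ) : ℤ) (α : L)) ∧
      ∀ z : Pl L → ℂˣ, (∀ w ∉ S, (z w : ℂ) + ((z w)⁻¹ : ℂˣ) =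
        ((lam w / Real.sqrt (pnorm w) : ℝ) : ℂ)) →
      ∏ᶠ w : Pl L, (if w ∈ S then 1 else z w ^ CFT.ord w (α : L)) ≠ 1
  /-- A place over `3` alone over its restriction has index and norm three and lies outside `R`. -/
  wild : ∀ w : Pl L, (3 : 𝓞 L) ∈ w.asIdeal →
    (∀ w' : Pl L, plUnder K w' = plUnder K w → w' = w) →
    plRamIdx K w = 3 ∧ pnorm w = 3 ∧ w ∉ R
  /-- Infinitely many places of `K` have over them one of equal norm with nonzero eigenvalue. -/
  split_ne_zero : {v : Pl K | ∃ w : Pl L, LiesOver K L w v ∧ pnorm w = pnorm v ∧ lam w ≠ 0}.Infinite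

/-- **Every surjective representation with cyclotomic determinant has Galois data.** -/
theorem galData {ρ : Γℚ →* GL (Fin 2) (ZMod 3)} (hρ : GenRho ρ) {K L : Type} [Field K]
    [NumberField K] [Field L] [NumberField L] [Algebra K L] {ι : L →+* ℚbar}
    (hF : FieldData K L ρ ι) : ∃ (lam : Pl L → ℝ) (R : Finset (Pl L)), GalData K L ρ ι lam R := by
  have := finite_nField hρ.continuous
  have := isGalois_nField hρ.continuous
  let _ : Algebra L (nField ρ) := (lIncl hF).toAlgebra
  let _ : Algebra K (nField ρ) := ((lIncl hF).comp (algebraMap K L)).toAlgebra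
  have : IsScalarTower K L (nField ρ) := IsScalarTower.of_algebraMap_eq' rfl
  -- the tower, and places realising each element of `Q₈` as Frobenius
  obtain ⟨T, hTe⟩ := hρ.gTower hF (RingHom.algebraMap_toAlgebra _)
  obtain ⟨ζ, hζ⟩ := exists_zeta hF hρ.det
  have := totallyComplex_of_zeta hζ
  have := isTotallyComplex_of_algebra (F := K) (K := L)
  have := T.isGalois_L
  have hpl := fun (X : G₃) (hX : IsQ (X : M₃)) (S : Finset (Pl L)) => hρ.exists_place T hTe hX S
  have hpl' : ∀ X : G₃, IsQ (X : M₃) → ∀ S : Finset (Pl L),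
      ∃ (W : Pl (nField ρ)) (g : nField ρ ≃ₐ[L] nField ρ), plUnder L W ∉ S ∧
        plUnder L W ∉ T.ramN ∧ Congr g W (resCard (plUnder L W)) ∧
        Subgroup.zpowers (T.eL g) = Subgroup.zpowers X := fun X hX S => by
    obtain ⟨W, g, h1, h2, h3, -, h4⟩ := hpl X hX S
    exact ⟨W, g, h1, h2, h3, h4⟩
  obtain ⟨v3, hv3, hnorm, huniq⟩ := exists_v3 T.finrank_K hζ
  refine ⟨T.lam, T.ramN, T.isGalois_KL, inferInstance, inferInstance, T.finrank_K,
    T.finrank_KL, ⟨ζ, hζ⟩, ⟨v3, hv3, hnorm, huniq, fun g => huniq _ ?_⟩, ?_,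
    T.lam_mapPlace, fun w => ?_, ?_,
    fun S n => T.exists_killElement hpl' S n, fun w h3 hu => T.wild3 hζ h3 hu, ?_⟩
  · change ((RingOfIntegers.mapRingEquiv g).symm : 𝓞 K →+* 𝓞 K) 3 ∈ v3.asIdeal
    rwa [map_ofNat]
  · intro w hw A hA σ hσ hfrob
    exact (T.lam_of_not_mem hw).trans
      (T.frobLam_eq_of_frobenius hF hTe (RingHom.algebraMap_toAlgebra _) (T.unram hw) hA hσ hfrob)
  · by_cases hw : w ∈ T.ramN
    · exact Or.inl (T.lam_of_mem hw)
    · rcases T.lam_eq_zero_or w hw with ⟨-, h⟩ | ⟨-, h⟩
      · exact Or.inl h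
      · exact Or.inr h
  -- the quadratic character: a non-split place with Frobenius generating the image of `X₁`
  · refine ⟨T.Mf, inferInstance, inferInstance, inferInstance, T.σ, ⟨T.hData hζ fun S => ?_⟩⟩
    obtain ⟨W, g, hS, hR, hg, -, hgX⟩ := hpl X₁ (Or.inr (Or.inr isI_X₁)) S
    set P := plUnder T.Mf W
    have hP : plUnder L P = plUnder L W := plUnder_plUnder' (N := T.Mf) W
    rw [← hP] at hg hS hR
    rw [← T.eL_y₁] at hgX
    have hz : Subgroup.zpowers g = Subgroup.zpowers T.y₁ := by
      apply Subgroup.map_injective T.eL_injective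
      rw [MonoidHom.map_zpowers, MonoidHom.map_zpowers]; exact hgX
    have hgC : g ∈ T.C := Subgroup.zpowers_le.mp hz.le
    have hns : T.σ • P ≠ P := by
      intro h
      have hgr := (isNonsplit_iff_congr T.finrank_Mf T.σ_ne_one rfl (T.unram_Mf (T.unram hR))
        (hg.restrictNormal (N := T.Mf))).mp (IsNonsplit.of_smul_eq T.finrank_Mf T.σ_ne_one h)
      exact hgr ((T.restrict_eq_one_iff_mem g).mpr hgC)
    refine ⟨P, hS, hR, hns, ?_⟩
    have hI : IsI (T.eL g : M₃) := by
      rcases T.mem_C_iff.mp hgC with e | e | e | e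
      · exfalso
        have : g = 1 := T.eL_injective (Units.ext (by rw [e, map_one, Units.val_one]))
        rw [this, Subgroup.zpowers_one_eq_bot, eq_comm, Subgroup.zpowers_eq_bot] at hz
        exact T.y₂_not_mem (by
          have h := T.coe_eL_y₁_sq
          rw [hz, one_pow, map_one, Units.val_one] at h
          exact absurd h.symm neg_one_ne_one)
      · exfalso
        have h1 : T.y₁ ∈ Subgroup.zpowers g := hz ▸ Subgroup.mem_zpowers _
        have h2 : g ^ 2 = 1 := T.eL_injective (Units.ext (by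
          rw [map_pow, Units.val_pow_eq_pow_val, e, neg_one_sq, map_one, Units.val_one]))
        obtain ⟨k, hk⟩ := Subgroup.mem_zpowers_iff.mp h1
        have h := T.coe_eL_y₁_sq
        rw [← hk, ← zpow_natCast, ← zpow_mul, mul_comm, zpow_mul, zpow_natCast, h2, one_zpow,
          map_one, Units.val_one] at h
        exact neg_one_ne_one h.symm
      · rw [e]; exact isI_X₁
      · rw [e]; exact isI_neg isI_X₁
    have hlam := (T.th_cases (T.unram hR)).2 hns
    rw [T.frobLam_eq (T.unram hR) hP.symm hg, liftTr_isI hI] at hlam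
    have hsum : (T.th P : ℂ) + ((T.th P)⁻¹ : ℂˣ) = ((0 : ℝ) : ℂ) := by
      have hq : ((Real.sqrt (resCard (plUnder L P)) : ℝ) : ℂ) ≠ 0 := Complex.ofReal_ne_zero.mpr
        (Real.sqrt_ne_zero'.mpr (by exact_mod_cast resCard_pos _))
      push_cast at hlam ⊢
      rw [mul_zero] at hlam
      exact (mul_eq_zero.mp hlam.symm).resolve_left hq
    exact (GTower.sq_of_satake hsum).1 rfl
  -- infinitely many split places with nonzero eigenvalue: those with trivial Frobenius
  · intro hfin
    obtain ⟨W, g, hS, hR, hg, hdeg, hgX⟩ := hpl 1 (Or.inl rfl)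
      (plAbove L hfin.toFinset)
    rw [mem_plAbove, hfin.mem_toFinset] at hS
    refine hS ⟨plUnder L W, rfl, hdeg, ?_⟩
    rw [Subgroup.zpowers_one_eq_bot, Subgroup.zpowers_eq_bot] at hgX
    rw [T.lam_eq hR rfl hg, hgX, liftTr_one]
    have : (0 : ℝ) < resCard (plUnder L W) := by exact_mod_cast resCard_pos _
    have := Real.sqrt_pos.mpr this
    push_cast
    positivity

end Fermat.LTG
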