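import Fermat.Agent.LT.Theta.Gal.MField
import Fermat.Agent.LTG.Targets
import Fermat.Agent.RM.QEight

/-!
# Galois data: the fields `K ⊆ L ⊆ N` attached to a surjective mod `3` representation

`exists_fieldData` gives `K` and `L`; `gTower` makes them a `GTower`.
-/

set_option autoImplicit false

noncomputable section

open NumberField Fermat.CFT Fermat.LT Fermat.LT.Theta Fermat.LT.Theta.Gal
open scoped Pointwise

namespace Fermat.LTG

local notation "ℚbar" => AlgebraicClosure ℚ
local notation "Γℚ" => (AlgebraicClosure ℚ ≃ₐ[ℚ] AlgebraicClosure ℚ)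

/-- The tower with arbitrary (but finite) ramification. -/
structure GTower (K L N : Type) [Field K] [NumberField K] [Field L] [NumberField L] [Algebra K L]
    [Field N] [NumberField N] [Algebra L N] [Algebra K N] [IsScalarTower K L N]
    extends GL2Tower K L N where
  /-- Inertia is trivial away from some nonzero integer. -/
  unramified : ∃ n : ℕ, n ≠ 0 ∧ ∀ W : Pl N, (n : 𝓞 N) ∉ W.asIdeal → ∀ g : N ≃ₐ[ℚ] N,
    Congr g W 1 → g = 1

namespace GenRho

variable {ρ : Γℚ →* GL (Fin 2) (ZMod 3)} (hρ : GenRho ρ)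

include hρ

/-- **The fields `K` and `L`.** Some number fields `K ⊆ L`, with an embedding of `L`, satisfy
`FieldData` for `ρ`. -/
theorem exists_fieldData : ∃ (K L : Type) (_ : Field K) (_ : NumberField K) (_ : Field L)
    (_ : NumberField L) (_ : Algebra K L) (ι : L →+* ℚbar), FieldData K L ρ ι := by
  obtain ⟨K, L, _, _, aKL, hF⟩ := Fermat.RM.exists_fieldData (isOpen_ker hρ.continuous)
  exact ⟨K, L, inferInstance, inferInstance, inferInstance, inferInstance, aKL, L.val.toRingHom, hF⟩

variable [FiniteDimensional ℚ (nField ρ)] [Normal ℚ (nField ρ)]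
  {K L : Type} [Field K] [NumberField K] [Field L] [NumberField L] [Algebra K L]
  {ι : L →+* ℚbar} (hF : FieldData K L ρ ι)

include hF

/-- **The data of the tower.** The fields `K ⊆ L ⊆ nField ρ` form a `GTower` whose isomorphism with
the group is given by `ρ`. -/
theorem gTower [Algebra L (nField ρ)] [Algebra K (nField ρ)] [IsScalarTower K L (nField ρ)]
    (hL : algebraMap L (nField ρ) = lIncl hF) : ∃ T : GTower K L (nField ρ),
      ∀ σ, T.e (AlgEquiv.restrictNormalHom (nField ρ) σ) = ρ σ := by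
  obtain ⟨T, hT⟩ := exists_gl2Tower hF hρ.continuous hρ.surjective hL
  obtain ⟨S, hS⟩ := exists_finset_map_inertia_eq_one ρ (isOpen_ker hρ.continuous)
  refine ⟨⟨T, ∏ ℓ ∈ S.filter Nat.Prime, ℓ, Finset.prod_ne_zero_iff.mpr fun ℓ hℓ =>
    (Finset.mem_filter.mp hℓ).2.ne_zero, fun W hW g hgW => ?_⟩, hT⟩
  obtain ⟨ℓ, hℓ, hℓW, A, hA, σ, hσ, rfl⟩ := exists_lift_inertia hgW
  have h1 := hS ℓ hℓ (fun hℓS => hW ?_) A hA σ hσ
  · rw [← MonoidHom.mem_ker, ker_restrict hρ.continuous, MonoidHom.mem_ker, h1]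
  · rw [← Finset.mul_prod_erase _ _ (Finset.mem_filter.mpr ⟨hℓS, hℓ⟩), Nat.cast_mul]
    exact Ideal.mul_mem_right _ _ hℓW

end GenRho

end Fermat.LTG
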