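import Fermat.Agent.LTG.Gal.Fields
import Fermat.Agent.LT.Theta.Gal.Frob
import Fermat.Agent.LT.Theta.Cyclo

/-!
# Galois data: Frobenius elements away from the ramified places

`lam` is the eigenvalue at a place of `L`, read off Frobenius (`lam_eq`) and invariant under
automorphisms (`lam_mapPlace`).
-/

set_option autoImplicit false

noncomputable section

open NumberField Fermat.CFT Fermat.LT Fermat.LT.Theta Fermat.LT.Theta.Gal
open scoped Pointwise Classical

namespace Fermat.LTG

namespace GTower

open GL2Tower

variable {K L N : Type} [Field K] [NumberField K] [Field L] [NumberField L] [Algebra K L]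
  [Field N] [NumberField N] [Algebra L N] [Algebra K N] [IsScalarTower K L N]
  (T : GTower K L N)

include T

/-- Only finitely many places ramify. -/
lemma finite_not_unram : {w : Pl L | ¬ Unram N w}.Finite := by
  have := T.isGalois_L
  obtain ⟨n, hn, hW⟩ := T.unramified
  refine (Ideal.finite_factors (I := Ideal.span {(n : 𝓞 L)}) (by simpa using hn)).subset ?_
  intro w hw
  rw [Set.mem_ofPred_eq, Ideal.dvd_iff_le, Ideal.span_singleton_le_iff_mem]
  by_contra h
  refine hw ?_
  rintro W rfl
  refine plRamIdx_eq_one_of_inertia W fun g hg => T.eL_injective ?_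
  rw [map_one, eL_apply, hW W (fun h' => h ((natCast_mem_plUnder W n).mpr h')) _
    (congr_restrict.mpr (Congr.one_iff.mpr hg)), map_one]

/-- The finite set of the places of `L` ramified in `N`. -/
def ramN : Finset (Pl L) := T.finite_not_unram.toFinset

/-- Membership in the ramified places. -/
lemma mem_ramN {w : Pl L} : w ∈ T.ramN ↔ ¬ Unram N w := Set.Finite.mem_toFinset _

/-- A place outside the ramified ones is unramified. -/
lemma unram {w : Pl L} (h : w ∉ T.ramN) : Unram N w := of_not_not fun h' => h (T.mem_ramN.mpr h')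

/-- Outside the ramified set `N/L` is unramified. -/
lemma plRamIdx_eq_one {W : Pl N} (h : plUnder L W ∉ T.ramN) : plRamIdx L W = 1 := T.unram h W rfl

/-- The eigenvalue at a place of `L` (zero at the ramified ones). -/
def lam (w : Pl L) : ℝ := if w ∈ T.ramN then 0 else T.frobLam w

/-- The eigenvalue at a ramified place is `0`. -/
lemma lam_of_mem {w : Pl L} (h : w ∈ T.ramN) : T.lam w = 0 := if_pos h

/-- The eigenvalue at an unramified place is read off Frobenius. -/
lemma lam_of_not_mem {w : Pl L} (h : w ∉ T.ramN) : T.lam w = T.frobLam w := if_neg h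

/-- The eigenvalue is the lifted trace of Frobenius times the square root of the residue count. -/
lemma lam_eq {w : Pl L} (h : w ∉ T.ramN) {W : Pl N} (hW : plUnder L W = w)
    {g : N ≃ₐ[L] N} (hg : Congr g W (resCard w)) :
    T.lam w = Real.sqrt (resCard w) * (liftTr (T.eL g) : ℝ) :=
  (T.lam_of_not_mem h).trans (T.frobLam_eq (T.unram h) hW hg)

/-- **The ramified set is stable under automorphisms of `L`.** -/
lemma mapPlace_mem_ramN_iff (g : L ≃+* L) (w : Pl L) :
    Fermat.LT.mapPlace g w ∈ T.ramN ↔ w ∈ T.ramN := by
  have := T.galois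
  rw [mem_ramN, mem_ramN, unram_mapPlace_iff]

/-- The eigenvalues are invariant under automorphisms of `L`. -/
lemma lam_mapPlace (g : L ≃+* L) (w : Pl L) :
    T.lam (Fermat.LT.mapPlace g w) = T.lam w := by
  by_cases h : w ∈ T.ramN
  · rw [T.lam_of_mem h, T.lam_of_mem ((T.mapPlace_mem_ramN_iff g w).mpr h)]
  rw [T.lam_of_not_mem h, T.lam_of_not_mem ((T.mapPlace_mem_ramN_iff g w).not.mpr h),
    T.frobLam_mapPlace g (T.unram h)]

end GTower

end Fermat.LTG
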