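import Fermat.Agent.LT.Theta.Recip

/-!
# Reciprocity in cyclic quartic extensions with arbitrary ramification at `2`

For an element which is a local norm at all the ramified places the product formula follows from
the relation between the symbols and the fact that no unramified place is alone, so no hypothesis
on the ramified places is needed.
-/

set_option autoImplicit false

noncomputable section

open NumberField Fermat.CFT Fermat.LT.Theta
open scoped Classical

namespace Fermat.LTG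

variable {K : Type} [Field K] [NumberField K] [IsTotallyComplex K]
  {F : Type} [Field F] [NumberField F] [Algebra K F] [IsGalois K F]

/-- **The product formula** for an element which is a local norm at the ramified places. -/
theorem even_ncard_of_norm_ram (hF : Module.finrank K F = 2) {σ : F ≃ₐ[K] F} (hσ : σ ≠ 1)
    {x : Kˣ} (hx : ∀ v ∈ ramPl F, v ∉ nonNorm σ x) : Even (nonNorm σ x).ncard := by
  obtain ⟨U, A, hU, -, -, -, hP⟩ := exists_relation hF hσ (nonNorm_finite hF hσ x).toFinset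
  set P := (nonNorm_finite hF hσ x).toFinset with hPdef
  have hPns : ∀ v ∈ P, IsNonsplit σ v := fun v hv => ((Set.Finite.mem_toFinset _).mp hv).1
  have h := (hP P hU hPns).mp ⟨x, by simp [hPdef]⟩
  rw [Finset.inter_eq_left.mpr ?_] at h
  · rwa [Set.ncard_eq_toFinset_card _ (nonNorm_finite hF hσ x)]
  intro v hv
  by_contra hvA
  obtain ⟨z, hz⟩ :=
    (hP {v} (Finset.singleton_subset_iff.mpr (hU hv)) (by simpa using hPns v hv)).mpr
    (by rw [Finset.singleton_inter_of_notMem hvA]; exact Even.zero)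
  rw [Finset.coe_singleton] at hz
  exact not_alone_unram hF hσ (fun hr => hx v hr ((Set.Finite.mem_toFinset _).mp hv))
    (hPns v hv) ⟨z, hz⟩

variable {N : Type} [Field N] [NumberField N] [Algebra K N] [IsGalois K N] [Algebra F N]
  [IsScalarTower K F N]

/-- An element close to `1` at `T` is, up to one of trivial symbol, a norm from `F`. -/
private lemma exists_norm_twist (hcy : IsCyclic (N ≃ₐ[K] N)) (hcard : Nat.card (N ≃ₐ[K] N) = 4)
    (hF : Module.finrank K F = 2) {σ : F ≃ₐ[K] F} (hσ : σ ≠ 1) {T : Finset (Pl K)}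
    (hT : ∀ u : Pl N, plUnder K u ∉ T → plRamIdx K u = 1) {A : Type*} [CommGroup A]
    (χ : (N ≃ₐ[K] N) →* A) {n : ℕ} (hnT : ∀ v ∈ T, localLevel 2 (-1 : K) v ≤ n) {x₀ : Kˣ}
    (hx₀ : ∀ v ∈ T, CloseOne v ((n + 1 : ℕ) : ℤ) (x₀ : K)) :
    ∃ η : Fˣ, (∀ v ∈ T, CloseOne v ((n + 1 : ℕ) : ℤ) (Algebra.norm K (η : F))) ∧
      art χ (T : Set (Pl K)) (x₀ : K) = art χ (T : Set (Pl K)) (Algebra.norm K (η : F)) := by
  obtain ⟨Q, hQT, hQr, hQns, hQ⟩ := exists_not_alone hF hσ T
  have hlev : ∀ (z : Kˣ), (∀ v ∈ T, CloseOne v ((n + 1 : ℕ) : ℤ) (z : K)) →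
      ∀ v ∈ T, v ∉ nonNorm σ z := fun z hz v hv h => h.2 (mem_lnorms_of_closeOne
        (closeOne_mono (hz v hv) (by exact_mod_cast (hnT v hv).trans (Nat.le_succ _))))
  -- kill the inert places of odd valuation
  set R := (nonNorm_finite hF hσ x₀).toFinset with hR
  have hReven : Even R.card := by
    rw [← Set.ncard_eq_toFinset_card _ (nonNorm_finite hF hσ x₀)]
    refine even_ncard_of_norm_ram hF hσ fun v hv => hlev x₀ hx₀ v ?_
    by_contra hvT
    exact not_mem_ramPl_of_not_mem (Ω := N) (F := F) (T : Set (Pl K)) (fun W hW => hT W hW) hvT hv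
  obtain ⟨y, hy, hyc, hyA⟩ := exists_kill hF hσ hcy (a := 2) (by rw [hcard]; norm_num) χ hT n hQT
    hQns R fun r hr => ⟨fun hrT => hlev x₀ hx₀ r hrT ((Set.Finite.mem_toFinset _).mp hr),
      ((Set.Finite.mem_toFinset _).mp hr).1⟩
  rw [if_pos hReven, hR, Set.Finite.coe_toFinset] at hy
  obtain ⟨η, hη⟩ := exists_norm_eq_of_nonNorm_eq_empty hF hσ (x := x₀ * y) (by
    rw [nonNorm_mul hF hσ, hy, symmDiff_self]; rfl)
  refine ⟨η, fun v hv => ?_, ?_⟩
  · rw [hη, Units.val_mul]
    exact (hx₀ v hv).mul (Int.natCast_pos.mpr n.succ_pos) (hyc v hv) y.ne_zero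
  · rw [hη, Units.val_mul, art_mul χ _ x₀.ne_zero y.ne_zero, hyA, mul_one]

variable (hcy : IsCyclic (N ≃ₐ[K] N))
  (hcard : Nat.card (N ≃ₐ[K] N) = 4) (hF : Module.finrank K F = 2) {σ : F ≃ₐ[K] F} (hσ : σ ≠ 1)
  {T : Finset (Pl K)} (hT : ∀ u : Pl N, plUnder K u ∉ T → plRamIdx K u = 1)

include hcy hcard hF hσ hT

/-- **Reciprocity in a cyclic extension of degree four**: the symbol is trivial on the elements
deep at `T`. -/
theorem exists_art_eq_one_deep {A : Type*} [CommGroup A] (χ : (N ≃ₐ[K] N) →* A) :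
    ∃ n : ℕ, ∀ x : Kˣ, (∀ v ∈ T, CloseOne v n (x : K)) → art χ (T : Set (Pl K)) (x : K) = 1 := by
  have : IsGalois F N := IsGalois.tower_top_of_isGalois K F N
  have hFN : Module.finrank F N = 2 := by
    have h := Module.finrank_mul_finrank K F N
    rw [hF, ← IsGalois.card_aut_eq_finrank K N, hcard] at h
    omega
  set TF := plAbove F T
  obtain ⟨m, hm⟩ : ∃ m : ℕ, ∀ w ∈ TF, localLevel 2 (-1 : F) w ≤ m :=
    ⟨_, fun w hw => Finset.le_sup (f := fun w : Pl F => localLevel 2 (-1 : F) w) hw⟩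
  obtain ⟨L, hL⟩ := exists_h90 hF hσ (m + 1)
  obtain ⟨n, hn, hnT⟩ : ∃ n : ℕ, (∀ w ∈ TF, L (m + 1) w + (m + 1) ≤ n) ∧
      ∀ v ∈ T, localLevel 2 (-1 : K) v ≤ n := by
    refine ⟨TF.sup (fun w => L (m + 1) w + (m + 1)) + T.sup (fun v => localLevel 2 (-1 : K) v),
      fun w hw => le_add_right (Finset.le_sup (f := fun w => L (m + 1) w + (m + 1)) hw),
      fun v hv => le_add_left (Finset.le_sup (f := fun v : Pl K => localLevel 2 (-1 : K) v) hv)⟩
  refine ⟨n + 1, fun x₀ hx₀ => ?_⟩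
  obtain ⟨η, hηc, hηA⟩ := exists_norm_twist hcy hcard hF hσ hT χ hnT hx₀
  -- adjust `η` so that it is a local norm from `N` above `T`
  have : IsTotallyComplex F := isTotallyComplex_of_algebra (F := K) (K := F)
  have hup : ∀ w ∈ TF, ∀ k : ℕ, k ≤ n + 1 → CloseOne w (k : ℤ) ((η : F) * σ η) := fun w hw k hk =>
    closeOne_mul_conj hF hσ η w hk (hηc _ (mem_plAbove.mp hw))
  obtain ⟨η', hη'N, hη'c⟩ := exists_twist_closeOne hF hσ T η (m := m)
    (fun w hw => by
      obtain ⟨z, hz0, -, hzc⟩ := hL w η η.ne_zero (hup w hw (L (m + 1) w)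
        (by have := hn w hw; omega))
      exact ⟨Units.mk0 z hz0, hzc⟩)
    fun w hw => hup w hw (m + 1) (by have := hn w hw; omega)
  have hlnorm : ∀ w ∈ TF, η' ∈ lnorms N w := fun w hw => mem_lnorms_of_closeOne
    (closeOne_mono (n := ((m + 1 : ℕ) : ℤ)) (hη'c w hw)
      (by exact_mod_cast (hm w hw).trans (Nat.le_succ _)))
  rw [hηA, ← hη'N]
  exact art_norm_eq_one_of_even hcy hcard hF hT χ η' hlnorm fun σN hσN =>
    even_ncard_of_norm_ram hFN hσN fun w hw h => h.2 (hlnorm w (mem_plAbove.mpr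
      (mem_of_mem_ramPl (Ω := N) (T : Set (Pl K)) (fun W hW => hT W hW) hw)))

end Fermat.LTG
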