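import Fermat.Agent.LTG.Gal.Frob
import Fermat.Agent.LTG.Gal.Recip

/-!
# The Hecke character data with arbitrary ramification

`HData σ lam T` records a character of order four of the ideals of the quadratic extension `M/F`
prime to the finite set `T`, inverted by `σ`, trivial on the elements deep enough at `T`.
-/

set_option autoImplicit false

noncomputable section

open NumberField IsDedekindDomain Fermat.CFT Fermat.LT Fermat.LT.Theta Fermat.LT.Theta.Gal
open scoped Pointwise Classical

namespace Fermat.LTG

/-- `∏_{P off T} th(P) ^ ord_P x`. -/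
def thProd {F M : Type} [Field F] [NumberField F] [Field M] [NumberField M] [Algebra F M]
    (th : Pl M → ℂˣ) (T : Finset (Pl F)) (x : M) : ℂˣ :=
  ∏ᶠ P : Pl M, if plUnder F P ∈ T then 1 else th P ^ CFT.ord P x

/-- A character of order four of the ideals of a quadratic extension `M/F` prime to the finite set
`T`, inverted by the conjugation `σ`, killed by the elements deep at `T`, together with the
eigenvalues `lam` it induces on `F`. -/
structure HData {F M : Type} [Field F] [NumberField F] [Field M] [NumberField M] [Algebra F M]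
    (σ : M ≃ₐ[F] M) (lam : Pl F → ℝ) (T : Finset (Pl F)) where
  /-- `M/F` is quadratic. -/
  finrank : Module.finrank F M = 2
  /-- `M/F` is Galois. -/
  galois : IsGalois F M
  /-- `σ` is the nontrivial automorphism. -/
  σ_ne : σ ≠ 1
  /-- The values at the primes outside `T`. -/
  th : Pl M → ℂˣ
  /-- The values are fourth roots of unity. -/
  th_four : ∀ P, th P ^ 4 = 1
  /-- Conjugation inverts the values outside `T`. -/
  th_σ : ∀ P : Pl M, plUnder F P ∉ T → th (σ • P) = (th P)⁻¹
  /-- The value at an inert prime outside `T` is `-1`. -/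
  th_inert : ∀ P : Pl M, plUnder F P ∉ T → σ • P = P → th P = -1
  /-- `M/F` is unramified outside `T`. -/
  unram : ∀ P : Pl M, plUnder F P ∉ T → plRamIdx F P = 1
  /-- For some depth the product of the values is trivial on the elements that deep at `T`. -/
  kill : ∃ f : ℕ, ∀ x : Mˣ, (∀ P : Pl M, plUnder F P ∈ T → CloseOne P f (x : M)) →
    thProd th T (x : M) = 1
  /-- At a split place the eigenvalue is `√N v (th P + (th P)⁻¹)`. -/
  lam_split : ∀ P : Pl M, plUnder F P ∉ T → σ • P ≠ P →
    (lam (plUnder F P) : ℂ) =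
      (Real.sqrt (resCard (plUnder F P)) : ℂ) * ((th P : ℂ) + ((th P)⁻¹ : ℂˣ))
  /-- The induced eigenvalue at an inert place is zero. -/
  lam_inert : ∀ P : Pl M, plUnder F P ∉ T → σ • P = P → lam (plUnder F P) = 0
  /-- Outside any finite set a split prime has a value of exact order four. -/
  nontrivial : ∀ S : Finset (Pl F), ∃ P : Pl M, plUnder F P ∉ S ∧ plUnder F P ∉ T ∧
    σ • P ≠ P ∧ th P ^ 2 = -1

namespace HData

variable {F M : Type} [Field F] [NumberField F] [Field M] [NumberField M] [Algebra F M]
  {σ : M ≃ₐ[F] M} {lam : Pl F → ℝ} {T : Finset (Pl F)}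

/-- The data at a larger set of places. -/
def mono (H : HData σ lam T) {T' : Finset (Pl F)} (h : T ⊆ T') : HData σ lam T' where
  finrank := H.finrank
  galois := H.galois
  σ_ne := H.σ_ne
  th := H.th
  th_four := H.th_four
  th_σ P hP := H.th_σ P fun h' => hP (h h')
  th_inert P hP := H.th_inert P fun h' => hP (h h')
  unram P hP := H.unram P fun h' => hP (h h')
  kill := by
    obtain ⟨f, hf⟩ := H.kill
    refine ⟨f + 1, fun x hx => ?_⟩
    rw [← hf x fun P hP => closeOne_mono (hx P (h hP)) (by push_cast; omega)]
    refine finprod_congr fun P => ?_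
    by_cases hP : plUnder F P ∈ T
    · rw [if_pos hP, if_pos (h hP)]
    by_cases hP' : plUnder F P ∈ T'
    · rw [if_pos hP', if_neg hP, (hx P hP').ord_eq_zero (by push_cast; omega), zpow_zero]
    · rw [if_neg hP, if_neg hP']
  lam_split P hP := H.lam_split P fun h' => hP (h h')
  lam_inert P hP := H.lam_inert P fun h' => hP (h h')
  nontrivial S := by
    obtain ⟨P, hP, hPT, h1, h2⟩ := H.nontrivial (S ∪ T')
    rw [Finset.mem_union, not_or] at hP
    exact ⟨P, hP.1, hP.2, h1, h2⟩

end HData

namespace GTower

open GL2Tower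

variable {K L N : Type} [Field K] [NumberField K] [Field L] [NumberField L] [Algebra K L]
  [Field N] [NumberField N] [Algebra L N] [Algebra K N] [IsScalarTower K L N]
  (T : GTower K L N)

include T

variable {ζ : K} (hζ : IsPrimitiveRoot ζ 3)

include hζ

/-- **The character kills the elements deep at the ramified places.** -/
theorem th_kill : ∃ f : ℕ, ∀ x : T.Mfˣ,
    (∀ P : Pl T.Mf, plUnder L P ∈ T.ramN → CloseOne P f (x : T.Mf)) →
    thProd T.th T.ramN (x : T.Mf) = 1 := by
  have := T.isGalois_NM
  have := T.totallyComplex_Mf hζ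
  have hT : ∀ u : Pl N, plUnder T.Mf u ∉ plAbove T.Mf T.ramN → plRamIdx T.Mf u = 1 := fun u hu => by
    rw [mem_plAbove, plUnder_plUnder' (N := T.Mf) u] at hu
    exact (T.unram_N (T.unram hu)).1
  obtain ⟨f, hf⟩ := exists_art_eq_one_deep (F := T.Mf') T.isCyclic_N (by rw [T.card_N]; norm_num)
    T.finrank_Mf' T.restrict_Mf'_ne_one (T := plAbove T.Mf T.ramN) hT T.χ
  refine ⟨f, fun x hx => ?_⟩
  rw [← hf x fun v hv => hx v (mem_plAbove.mp hv), thProd, art]
  refine finprod_congr fun P => ?_
  simp only [Finset.mem_coe, mem_plAbove, th]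

/-- **The Hecke data of the tower.** The character of order four of the tower as `HData` for `σ` and
`lam`, unramified off `T.ramN`. -/
def hData (hnt : ∀ S : Finset (Pl L), ∃ P : Pl T.Mf, plUnder L P ∉ S ∧ plUnder L P ∉ T.ramN ∧
    T.σ • P ≠ P ∧ T.th P ^ 2 = -1) : HData T.σ T.lam T.ramN where
  finrank := T.finrank_Mf
  galois := inferInstance
  σ_ne := T.σ_ne_one
  th := T.th
  th_four := T.th_four
  th_σ _ h := T.th_σ (T.unram h)
  th_inert _ h hs := ((T.th_cases (T.unram h)).1 hs).1
  unram _ h := T.unram_Mf (T.unram h)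
  kill := T.th_kill hζ
  lam_split _ h hs := by rw [lam, if_neg h]; exact (T.th_cases (T.unram h)).2 hs
  lam_inert _ h hs := by rw [lam, if_neg h]; exact ((T.th_cases (T.unram h)).1 hs).2
  nontrivial := hnt

end GTower

end Fermat.LTG
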